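/-
S36, block [C] (helper8), file (C2): **the Kummer dévissage `no_split_cover_pow` for a finite family
of vertical valuations and a possibly NON-REDUCED special fibre.**

Same setting as `P3G/Assembly/PowCover.lean`, but instead of two valuation subrings with
uniformiser `π` (`TwoVal`) we allow a finite nonempty family `V i` of valuation subrings of `F₀`
with `π ∈ 𝔪_{V i}` and `𝔪_{V i} ^ E ⊆ π V i` (`FamVal`); `W = ⋂ V i`.  All congruences are modulo
`π W` (equivalently modulo `π V i` for every `i`), never modulo the radical.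
-/
import Mathlib
import Fermat.Agent.P3G.Assembly.PowCover

set_option autoImplicit false
set_option linter.unusedSectionVars false
set_option linter.style.haveILetI false
set_option linter.unusedVariables false

open Polynomial IntermediateField

namespace Fermat.Agent.S36.C.PowCoverFam

open Fermat.Agent.N4.Chart Fermat.Agent.P3G.Cover.Lift Fermat.Agent.P3G.Assembly.PowCover
open Fermat.Agent.N4.Cover.Main (isFractionRing_chartAlg isIntegrallyClosed_chartAlg)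

/-! ### Congruences modulo `ϖ A` in a valuation subring -/

section PiMem

variable {F : Type*} [Field F] (A : ValuationSubring F)

/-- `x ∈ ϖ A`. -/
def PiMem (ϖ x : F) : Prop := x * ϖ⁻¹ ∈ A

variable {A} {ϖ : F}

theorem piMem_zero : PiMem A ϖ 0 := by
  unfold PiMem; rw [zero_mul]; exact A.zero_mem

theorem piMem_add {x y : F} (hx : PiMem A ϖ x) (hy : PiMem A ϖ y) : PiMem A ϖ (x + y) := by
  unfold PiMem at *; rw [add_mul]; exact A.add_mem _ _ hx hy

theorem piMem_neg {x : F} (hx : PiMem A ϖ x) : PiMem A ϖ (-x) := by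
  unfold PiMem at *; rw [neg_mul]; exact A.neg_mem _ hx

theorem piMem_sub {x y : F} (hx : PiMem A ϖ x) (hy : PiMem A ϖ y) : PiMem A ϖ (x - y) := by
  rw [sub_eq_add_neg]; exact piMem_add hx (piMem_neg hy)

theorem piMem_mul_left {x y : F} (hx : x ∈ A) (hy : PiMem A ϖ y) : PiMem A ϖ (x * y) := by
  unfold PiMem at *; rw [mul_assoc]; exact A.mul_mem _ _ hx hy

theorem piMem_mul_right {x y : F} (hx : PiMem A ϖ x) (hy : y ∈ A) : PiMem A ϖ (x * y) := by
  rw [mul_comm]; exact piMem_mul_left hy hx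

theorem piMem_self (hϖ0 : ϖ ≠ 0) : PiMem A ϖ ϖ := by
  unfold PiMem; rw [mul_inv_cancel₀ hϖ0]; exact A.one_mem

theorem PiMem.nonunits (hϖ0 : ϖ ≠ 0) (hϖ : ϖ ∈ A.nonunits) {x : F} (hx : PiMem A ϖ x) :
    x ∈ A.nonunits := by
  have : x = x * ϖ⁻¹ * ϖ := by rw [mul_assoc, inv_mul_cancel₀ hϖ0, mul_one]
  rw [this]
  exact nu_mul A hx hϖ

theorem PiMem.mem (hϖ0 : ϖ ≠ 0) (hϖ : ϖ ∈ A.nonunits) {x : F} (hx : PiMem A ϖ x) : x ∈ A :=
  nu_mem A (hx.nonunits hϖ0 hϖ)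

theorem piMem_of_eq_mul {x w : F} (hϖ0 : ϖ ≠ 0) (hw : w ∈ A) (h : x = ϖ * w) : PiMem A ϖ x := by
  unfold PiMem
  rw [h, mul_comm ϖ, mul_assoc, mul_inv_cancel₀ hϖ0, mul_one]
  exact hw

/-- A finite sum of nonunits is a nonunit. -/
theorem nu_sum {κ : Type*} (s : Finset κ) (f : κ → F) (h : ∀ a ∈ s, f a ∈ A.nonunits) :
    ∑ a ∈ s, f a ∈ A.nonunits := by
  classical
  induction s using Finset.induction_on with
  | empty => rw [Finset.sum_empty]; exact nu_zero A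
  | insert a s ha ih =>
    rw [Finset.sum_insert ha]
    exact nu_add A (h a (Finset.mem_insert_self a s))
      (ih fun b hb => h b (Finset.mem_insert_of_mem hb))

/-- Congruent units have congruent inverses modulo `ϖ A`. -/
theorem inv_sub_inv_piMem {x y : F} (hx0 : x ≠ 0) (hy0 : y ≠ 0) (hxi : x⁻¹ ∈ A) (hyi : y⁻¹ ∈ A)
    (h : PiMem A ϖ (x - y)) : PiMem A ϖ (x⁻¹ - y⁻¹) := by
  have : x⁻¹ - y⁻¹ = -((x - y) * (x⁻¹ * y⁻¹)) := by field_simp; ring
  rw [this]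
  exact piMem_neg (piMem_mul_right h (A.mul_mem _ _ hxi hyi))

/-- Congruent elements have congruent powers modulo `ϖ A`. -/
theorem pow_sub_pow_piMem {x y : F} (hx : x ∈ A) (hy : y ∈ A) (h : PiMem A ϖ (x - y)) (m : ℕ) :
    PiMem A ϖ (x ^ m - y ^ m) := by
  obtain ⟨c, hc⟩ := sub_dvd_pow_sub_pow (⟨x, hx⟩ : A) ⟨y, hy⟩ m
  have hc' : x ^ m - y ^ m = (x - y) * (c : F) := by
    have := congrArg (fun z : A => (z : F)) hc
    simpa using this
  rw [hc']
  exact piMem_mul_right h c.2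

/-- **Upgrade of a residue.**  If `k ≡ ξ` modulo `𝔪_A`, `ξ` a unit, `N` invertible in `A` and
`k ^ N ≡ ξ ^ N` modulo `ϖ A`, then `k ≡ ξ` modulo `ϖ A`. -/
theorem piMem_sub_of_pow {N : ℕ} {k ξ : F} (hk : k ∈ A) (hξ : ξ ∈ A)
    (hξ0 : ξ ≠ 0) (hξi : ξ⁻¹ ∈ A) (hN0 : (N : F) ≠ 0) (hNi : ((N : F))⁻¹ ∈ A)
    (hkξ : k - ξ ∈ A.nonunits) (h : PiMem A ϖ (k ^ N - ξ ^ N)) : PiMem A ϖ (k - ξ) := by
  set S : F := ∑ a ∈ Finset.range N, k ^ a * ξ ^ (N - 1 - a) with hS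
  have hSmul : S * (k - ξ) = k ^ N - ξ ^ N := (Commute.all k ξ).geom_sum₂_mul N
  have hNpos : N ≠ 0 := by
    rintro rfl
    exact hN0 (by simp)
  -- `S ≡ N ξ^(N-1)` modulo the maximal ideal
  have hconst : ∑ a ∈ Finset.range N, ξ ^ a * ξ ^ (N - 1 - a) = (N : F) * ξ ^ (N - 1) := by
    rw [Finset.sum_congr rfl (g := fun _ => ξ ^ (N - 1)), Finset.sum_const, Finset.card_range,
      nsmul_eq_mul]
    intro a ha
    rw [← pow_add]
    congr 1
    have := Finset.mem_range.mp ha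
    omega
  have hdiff : S - (N : F) * ξ ^ (N - 1) ∈ A.nonunits := by
    rw [← hconst, hS, ← Finset.sum_sub_distrib]
    refine nu_sum _ _ fun a _ => ?_
    rw [← sub_mul]
    exact nu_mul' A (pow_sub_pow_mem A hk hξ hkξ a) (pow_mem hξ _)
  have hu0 : (N : F) * ξ ^ (N - 1) ≠ 0 := mul_ne_zero hN0 (pow_ne_zero _ hξ0)
  have huA : (N : F) * ξ ^ (N - 1) ∈ A := A.mul_mem _ _ (natCast_mem A N) (pow_mem hξ _)
  have huiA : ((N : F) * ξ ^ (N - 1))⁻¹ ∈ A := by
    rw [mul_inv, ← inv_pow]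
    exact A.mul_mem _ _ hNi (pow_mem hξi _)
  obtain ⟨hS0, hSA, hSiA⟩ := mem_and_inv_mem_of_sub A hu0 huA huiA hdiff
  have : k - ξ = (k ^ N - ξ ^ N) * S⁻¹ := by
    rw [← hSmul, mul_comm S, mul_assoc, mul_inv_cancel₀ hS0, mul_one]
  rw [this]
  exact piMem_mul_right h hSiA

end PiMem

/-! ### A finite family of vertical valuations -/

universe u

section Family

variable {O : Type*} [CommRing O] {F₀ : Type u} [Field F₀] [Algebra O F₀]

/-- `W = ⋂ V i`, `π` lies in every maximal ideal, and `𝔪_{V i} ^ E ⊆ π V i`. -/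
structure FamVal (π : O) (W : Subring F₀) {ι : Type*} (V : ι → ValuationSubring F₀) (E : ℕ) :
    Prop where
  mem_iff : ∀ x : F₀, x ∈ W ↔ ∀ i, x ∈ V i
  pi_mem : ∀ i, algebraMap O F₀ π ∈ (V i).nonunits
  pow_unif : ∀ i, ∀ x ∈ (V i).nonunits, x ^ E * (algebraMap O F₀ π)⁻¹ ∈ V i
  pi_ne : algebraMap O F₀ π ≠ 0

variable {π : O} {W : Subring F₀} {ι : Type*} {V : ι → ValuationSubring F₀} {E : ℕ}

theorem FamVal.mem (hT : FamVal π W V E) {x : F₀} (hx : x ∈ W) (i : ι) : x ∈ V i :=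
  (hT.mem_iff x).1 hx i

/-- `⋂ π V i = π W`. -/
theorem FamVal.exists_eq_mul (hT : FamVal π W V E) {x : F₀}
    (h : ∀ i, PiMem (V i) (algebraMap O F₀ π) x) : ∃ w ∈ W, x = algebraMap O F₀ π * w := by
  refine ⟨x * (algebraMap O F₀ π)⁻¹, (hT.mem_iff _).2 h, ?_⟩
  rw [mul_comm x, ← mul_assoc, mul_inv_cancel₀ hT.pi_ne, one_mul]

theorem FamVal.piMem (hT : FamVal π W V E) {x : F₀}
    (h : ∃ w ∈ W, x = algebraMap O F₀ π * w) (i : ι) : PiMem (V i) (algebraMap O F₀ π) x := by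
  obtain ⟨w, hw, rfl⟩ := h
  exact piMem_of_eq_mul hT.pi_ne (hT.mem hw i) rfl

theorem FamVal.nonunits (hT : FamVal π W V E) {x : F₀}
    (h : ∃ w ∈ W, x = algebraMap O F₀ π * w) (i : ι) : x ∈ (V i).nonunits :=
  (hT.piMem h i).nonunits hT.pi_ne (hT.pi_mem i)

theorem FamVal.piMem_pow (hT : FamVal π W V E) (i : ι) {x : F₀} (hx : x ∈ (V i).nonunits) :
    PiMem (V i) (algebraMap O F₀ π) (x ^ E) := hT.pow_unif i x hx

end Family

/-! ### One chart -/

section Chart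

variable {O K₀ : Type*} [CommRing O] [IsDomain O] [IsDiscreteValuationRing O]
  [Field K₀] [CharZero K₀] [Algebra O K₀] [IsFractionRing O K₀]
variable {F₀ : Type u} [Field F₀] [Algebra K₀ F₀] [Algebra O F₀] [IsScalarTower O K₀ F₀]
variable {π : O} {W : Subring F₀} {ι : Type*} {V : ι → ValuationSubring F₀} {E : ℕ}

/-- **No closed point on two components with different residues of `k`.** -/
theorem not_le_both_fam {s : F₀} (hT : FamVal π W V E)
    (hW : IsSemiGaussRing W (algebraMap O (chartAlg O F₀ {s}) π))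
    {k : F₀} {p : ℕ} (i₁ i₂ : ι) (ξ₁ ξ₂ : O) (hξ : IsUnit (ξ₁ - ξ₂))
    (hk₁ : k - algebraMap O F₀ ξ₁ ∈ (V i₁).nonunits)
    (hk₂ : k - algebraMap O F₀ ξ₂ ∈ (V i₂).nonunits)
    (hloc : LocalRoots π W s k p) (𝔫 : Ideal (chartAlg O F₀ {s})) (h𝔫 : 𝔫.IsMaximal)
    (hπ𝔫 : algebraMap O (chartAlg O F₀ {s}) π ∈ 𝔫)
    (h₁ : centre s (V i₁) (fun r => hT.mem (hW.le r) i₁) ≤ 𝔫)
    (h₂ : centre s (V i₂) (fun r => hT.mem (hW.le r) i₂) ≤ 𝔫) : False := by
  obtain ⟨τ, hτ0, ⟨a, r, ha, hr, har⟩, hτ1⟩ := hloc 𝔫 h𝔫 hπ𝔫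
  have hy₁ : r - algebraMap O (chartAlg O F₀ {s}) ξ₁ * a ∈ 𝔫 := by
    refine h₁ (mem_centre.2 ?_)
    exact sub_mem_nonunits_of_root (V i₁) (hT.nonunits hτ1 i₁) (hT.mem (hW.le a) i₁)
      (hT.mem (hW.le (algebraMap O _ ξ₁)) i₁) hk₁ har
  have hy₂ : r - algebraMap O (chartAlg O F₀ {s}) ξ₂ * a ∈ 𝔫 := by
    refine h₂ (mem_centre.2 ?_)
    exact sub_mem_nonunits_of_root (V i₂) (hT.nonunits hτ1 i₂) (hT.mem (hW.le a) i₂)
      (hT.mem (hW.le (algebraMap O _ ξ₂)) i₂) hk₂ har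
  have h3 : algebraMap O (chartAlg O F₀ {s}) (ξ₁ - ξ₂) * a ∈ 𝔫 := by
    have : algebraMap O (chartAlg O F₀ {s}) (ξ₁ - ξ₂) * a =
        (r - algebraMap O (chartAlg O F₀ {s}) ξ₂ * a) -
          (r - algebraMap O (chartAlg O F₀ {s}) ξ₁ * a) := by
      rw [map_sub]; ring
    rw [this]
    exact 𝔫.sub_mem hy₂ hy₁
  obtain ⟨u, hu⟩ := hξ
  apply ha
  have h4 : a = algebraMap O (chartAlg O F₀ {s}) ((u⁻¹ : Oˣ) : O) *
      (algebraMap O (chartAlg O F₀ {s}) (ξ₁ - ξ₂) * a) := by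
    rw [← mul_assoc, ← map_mul, ← hu, Units.inv_mul, map_one, one_mul]
  rw [h4]
  exact Ideal.mul_mem_left _ _ h3

/-- **A function vanishing to order `π` on prescribed components and not at `𝔫`.**  If none of the
components `V i`, `i ∈ P`, passes through the prime `𝔫` of the chart, there is `d ∉ 𝔫` in the chart
with `d ∈ π V i` for all `i ∈ P`. -/
theorem exists_notMem_piMem [Finite ι] {s : F₀} (hT : FamVal π W V E)
    (hW : IsSemiGaussRing W (algebraMap O (chartAlg O F₀ {s}) π))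
    (𝔫 : Ideal (chartAlg O F₀ {s})) [h𝔫 : 𝔫.IsPrime] (P : ι → Prop)
    (hP : ∀ i, P i → ¬ centre s (V i) (fun r => hT.mem (hW.le r) i) ≤ 𝔫) :
    ∃ d : chartAlg O F₀ {s}, d ∉ 𝔫 ∧ ∀ i, P i → PiMem (V i) (algebraMap O F₀ π) (d : F₀) := by
  classical
  haveI := Fintype.ofFinite ι
  have hex : ∀ i, ∃ x : chartAlg O F₀ {s}, x ∉ 𝔫 ∧ (P i → (x : F₀) ∈ (V i).nonunits) := by
    intro i
    by_cases hi : P i
    · obtain ⟨x, hx, hx𝔫⟩ := SetLike.not_le_iff_exists.1 (hP i hi)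
      exact ⟨x, hx𝔫, fun _ => mem_centre.1 hx⟩
    · exact ⟨1, fun h1 => h𝔫.ne_top ((Ideal.eq_top_iff_one _).2 h1), fun h => absurd h hi⟩
  choose x hx𝔫 hxV using hex
  refine ⟨∏ i, x i ^ E, ?_, fun i hi => ?_⟩
  · intro hmem
    obtain ⟨i, -, hi⟩ := (Ideal.IsPrime.prod_mem_iff (hp := h𝔫)).1 hmem
    exact hx𝔫 i (h𝔫.mem_of_pow_mem _ hi)
  · rw [← Finset.mul_prod_erase Finset.univ _ (Finset.mem_univ i)]
    have h1 : (((x i ^ E * ∏ i' ∈ Finset.univ.erase i, x i' ^ E : chartAlg O F₀ {s})) : F₀) =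
        ((x i : F₀)) ^ E * ((∏ i' ∈ Finset.univ.erase i, x i' ^ E : chartAlg O F₀ {s}) : F₀) := by
      push_cast
      rfl
    rw [h1]
    exact piMem_mul_right (hT.piMem_pow i (hxV i hi)) (hT.mem (hW.le _) i)

end Chart

/-! ### The main theorem -/

section Final

open Fermat.Agent.N4.Cover.Main (adjoin_inv_eq)

variable {O K₀ : Type*} [CommRing O] [IsDomain O] [IsDiscreteValuationRing O]
  [Field K₀] [CharZero K₀] [Algebra O K₀] [IsFractionRing O K₀]
variable {F₀ : Type u} [Field F₀] [Algebra K₀ F₀] [Algebra O F₀] [IsScalarTower O K₀ F₀]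
variable {F' : Type*} [Field F'] [Algebra F₀ F'] [Algebra K₀ F'] [Algebra O F']
  [IsScalarTower K₀ F₀ F'] [IsScalarTower O K₀ F'] [IsScalarTower O F₀ F']

set_option maxHeartbeats 1600000 in
/-- **No split cyclic cover, dévissage form, for a finite family of vertical valuations.**
`h ≡ 1` modulo `π W`, with local `p ^ (n + 1)`-th roots `τ ≡ 1` modulo `π W` at every closed point
of the special fibre of both charts; then a `p ^ n`-th root `k` of `h` cannot generate an irreducible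
Kummer cover of degree `p` in which `K₀` is algebraically closed. -/
theorem no_split_cover_pow_fam (j : F₀) (hj : Transcendental K₀ j) [FiniteDimensional K₀⟮j⟯ F₀]
    {π : O} (hπ : Irreducible π)
    (W : Subring F₀) [IsIntegrallyClosed W] [IsFractionRing W F₀]
    {ι : Type*} [Finite ι] [Nonempty ι] (V : ι → ValuationSubring F₀) {E : ℕ}
    (hT : FamVal π W V E)
    (hWp : IsSemiGaussRing W (algebraMap O (chartAlg O F₀ {j}) π))
    (hWm : IsSemiGaussRing W (algebraMap O (chartAlg O F₀ {j⁻¹}) π))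
    {p : ℕ} (hp : p.Prime) (hpO : IsUnit ((p : ℕ) : O)) (n : ℕ) {ζ : O}
    (hζ : IsPrimitiveRoot ζ (p ^ (n + 1)))
    {h k : F₀} (hk : k ^ (p ^ n) = h)
    (hh : ∃ w ∈ W, h - 1 = algebraMap O F₀ π * w)
    {t : F'} (ht : t ^ p = algebraMap F₀ F' k) (htop : F₀⟮t⟯ = ⊤)
    (hirr : Irreducible (X ^ p - C k : F₀[X]))
    (halg : ∀ x : F', IsAlgebraic K₀ x → x ∈ (algebraMap K₀ F').range)
    (hlocp : LocalRoots π W j h (p ^ (n + 1)))
    (hlocm : LocalRoots π W j⁻¹ h (p ^ (n + 1))) : False := by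
  classical
  have hjinv : Transcendental K₀ j⁻¹ := fun h => hj (by simpa using h.inv)
  haveI : FiniteDimensional K₀⟮j⁻¹⟯ F₀ := by rw [adjoin_inv_eq]; infer_instance
  have hinjO : Function.Injective (algebraMap O F₀) := by
    rw [IsScalarTower.algebraMap_eq O K₀ F₀]
    exact (algebraMap K₀ F₀).injective.comp (IsFractionRing.injective O K₀)
  have hp0 : p ≠ 0 := hp.ne_zero
  have hpn : 0 < p ^ n := pow_pos hp.pos n
  -- the roots of unity
  have hζp : IsPrimitiveRoot (ζ ^ (p ^ n)) p := hζ.pow (pow_pos hp.pos _) (pow_succ p n)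
  have hζ' : IsPrimitiveRoot (ζ ^ p) (p ^ n) := hζ.pow (pow_pos hp.pos _) (pow_succ' p n)
  have hζ'F : IsPrimitiveRoot (algebraMap O F₀ (ζ ^ p)) (p ^ n) := hζ'.map_of_injective hinjO
  have hOW : ∀ x : O, algebraMap O F₀ x ∈ W := fun x => hWp.le (algebraMap O _ x)
  obtain ⟨i₀⟩ := ‹Nonempty ι›
  -- `h` and `k` are units of `W`
  have h1i : ∀ i, (1 : F₀)⁻¹ ∈ V i := fun i => by rw [inv_one]; exact (V i).one_mem
  have hhnu : ∀ i, h - 1 ∈ (V i).nonunits := fun i => hT.nonunits hh i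
  have hhpi : ∀ i, PiMem (V i) (algebraMap O F₀ π) (h - 1) := fun i => hT.piMem hh i
  have hhu : ∀ i, h ≠ 0 ∧ h ∈ V i ∧ h⁻¹ ∈ V i := fun i =>
    mem_and_inv_mem_of_sub (V i) one_ne_zero (V i).one_mem (h1i i) (hhnu i)
  have hh0 : h ≠ 0 := (hhu i₀).1
  have hhW : h ∈ W := (hT.mem_iff h).2 fun i => (hhu i).2.1
  have hhiW : h⁻¹ ∈ W := (hT.mem_iff _).2 fun i => (hhu i).2.2
  have hk0 : k ≠ 0 := by
    rintro rfl
    rw [zero_pow hpn.ne'] at hk
    exact hh0 hk.symm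
  have hkW : k ∈ W := by
    have hint : IsIntegral W k := by
      refine ⟨X ^ (p ^ n) - C ⟨h, hhW⟩, monic_X_pow_sub_C _ hpn.ne', ?_⟩
      rw [eval₂_sub, eval₂_pow, eval₂_X, eval₂_C]
      show k ^ (p ^ n) - h = 0
      rw [hk, sub_self]
    obtain ⟨y, hy⟩ := IsIntegrallyClosed.algebraMap_eq_of_integral hint
    rw [← hy]
    exact y.2
  have hkiW : k⁻¹ ∈ W := by
    have hint : IsIntegral W k⁻¹ := by
      refine ⟨X ^ (p ^ n) - C ⟨h⁻¹, hhiW⟩, monic_X_pow_sub_C _ hpn.ne', ?_⟩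
      rw [eval₂_sub, eval₂_pow, eval₂_X, eval₂_C]
      show k⁻¹ ^ (p ^ n) - h⁻¹ = 0
      rw [inv_pow, hk, sub_self]
    obtain ⟨y, hy⟩ := IsIntegrallyClosed.algebraMap_eq_of_integral hint
    rw [← hy]
    exact y.2
  -- the residues of `k`
  have hk1 : ∀ i, k ^ (p ^ n) - 1 ∈ (V i).nonunits := fun i => by rw [hk]; exact hhnu i
  have hres : ∀ i, ∃ m < p ^ n, k - algebraMap O F₀ (ζ ^ p) ^ m ∈ (V i).nonunits := fun i =>
    exists_pow_sub_mem (V i) hpn hζ'F (hT.mem (hOW _) i) (hT.mem hkW i) (hk1 i)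
  choose m hm hkm using hres
  -- the constants `c = ζ ^ m` (`p`-th roots of the residues) and their inverses
  have hc : ∀ m : ℕ, ζ ^ m * (ζ ^ (p ^ (n + 1) - 1)) ^ m = 1 := fun m => by
    rw [← mul_pow, ← pow_succ', Nat.sub_add_cancel (Nat.one_le_iff_ne_zero.mpr
      (pow_ne_zero _ hp0)), hζ.pow_eq_one, one_pow]
  have hcp : ∀ m : ℕ, (algebraMap O F₀ (ζ ^ m)) ^ p = (algebraMap O F₀ (ζ ^ p)) ^ m := fun m => by
    rw [← map_pow, ← map_pow, ← pow_mul, ← pow_mul, mul_comm]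
  have hcF : ∀ m : ℕ, algebraMap O F₀ (ζ ^ m) * algebraMap O F₀ ((ζ ^ (p ^ (n + 1) - 1)) ^ m) = 1 :=
    fun m => by rw [← map_mul, hc, map_one]
  have hc0 : ∀ m : ℕ, algebraMap O F₀ (ζ ^ m) ≠ 0 := fun m => left_ne_zero_of_mul_eq_one (hcF m)
  have hci : ∀ m : ℕ, (algebraMap O F₀ (ζ ^ m))⁻¹ ∈ W := fun m => by
    rw [inv_eq_of_mul_eq_one_right (hcF m)]
    exact hOW _
  -- `p ^ n` is invertible
  have hNunit : IsUnit (((p ^ n : ℕ) : ℕ) : O) := by
    rw [Nat.cast_pow]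
    exact hpO.pow n
  obtain ⟨uN, huN⟩ := hNunit
  have hNF : ((p ^ n : ℕ) : F₀) * algebraMap O F₀ ((uN⁻¹ : Oˣ) : O) = 1 := by
    rw [← map_natCast (algebraMap O F₀) (p ^ n), ← huN, ← map_mul, Units.mul_inv, map_one]
  have hN0 : ((p ^ n : ℕ) : F₀) ≠ 0 := left_ne_zero_of_mul_eq_one hNF
  have hNi : (((p ^ n : ℕ) : F₀))⁻¹ ∈ W := by
    rw [inv_eq_of_mul_eq_one_right hNF]
    exact hOW _
  -- the residues are congruences modulo `π V i`
  have hξpow : ∀ a : ℕ, (algebraMap O F₀ (ζ ^ p) ^ a) ^ (p ^ n) = 1 := fun a => by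
    rw [← pow_mul, mul_comm, pow_mul, hζ'F.pow_eq_one, one_pow]
  have hkpi : ∀ i, PiMem (V i) (algebraMap O F₀ π) (k - algebraMap O F₀ (ζ ^ p) ^ m i) := by
    intro i
    have hξA : algebraMap O F₀ (ζ ^ p) ^ m i ∈ V i := pow_mem (hT.mem (hOW _) i) _
    have hξ0 : algebraMap O F₀ (ζ ^ p) ^ m i ≠ 0 := fun h0 => by
      have := hξpow (m i)
      rw [h0, zero_pow hpn.ne'] at this
      exact zero_ne_one this
    have hξi : (algebraMap O F₀ (ζ ^ p) ^ m i)⁻¹ ∈ V i := by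
      have : (algebraMap O F₀ (ζ ^ p) ^ m i)⁻¹ = (algebraMap O F₀ (ζ ^ p) ^ m i) ^ (p ^ n - 1) := by
        apply inv_eq_of_mul_eq_one_right
        rw [← pow_succ', Nat.sub_add_cancel hpn, hξpow]
      rw [this]
      exact pow_mem hξA _
    refine piMem_sub_of_pow (hT.mem hkW i) hξA hξ0 hξi hN0 (hT.mem hNi i) (hkm i) ?_
    rw [hk, hξpow]
    exact hhpi i
  -- local roots of `k`
  have hlocp' : LocalRoots π W j k p := localRoots_pow (K₀ := K₀) j hj hp0 hk hlocp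
  have hlocm' : LocalRoots π W j⁻¹ k p := localRoots_pow (K₀ := K₀) j⁻¹ hjinv hp0 hk hlocm
  -- the vertical congruence, for a unit `g` of `W` with `g ^ p ≡ ξ_i` modulo `π V i`
  have hvert : ∀ g : F₀, g ≠ 0 → g⁻¹ ∈ W →
      (∀ i, PiMem (V i) (algebraMap O F₀ π) (g ^ p - algebraMap O F₀ (ζ ^ p) ^ m i)) →
      ∃ w ∈ W, (g⁻¹) ^ p * k - 1 = algebraMap O F₀ π * w := by
    intro g hg0 hgiW hg
    have hgg : (g⁻¹) ^ p * g ^ p = 1 := by rw [← mul_pow, inv_mul_cancel₀ hg0, one_pow]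
    have hrew : (g⁻¹) ^ p * k - 1 = (g⁻¹) ^ p * (k - g ^ p) := by
      linear_combination hgg
    rw [hrew]
    apply hT.exists_eq_mul
    intro i
    refine piMem_mul_left (pow_mem (hT.mem hgiW i) p) ?_
    have : k - g ^ p = (k - algebraMap O F₀ (ζ ^ p) ^ m i) -
        (g ^ p - algebraMap O F₀ (ζ ^ p) ^ m i) := by ring
    rw [this]
    exact piMem_sub (hkpi i) (hg i)
  by_cases hmall : ∀ i, m i = m i₀
  · -- equal residues: a constant `g`
    have hτ := hvert (algebraMap O F₀ (ζ ^ m i₀)) (hc0 _) (hci _)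
      (fun i => by rw [hcp, hmall i, sub_self]; exact piMem_zero)
    exact Fermat.Agent.P3G.Cover.Main.no_split_cover_of_strong (K₀ := K₀) (F' := F') j hj hπ W
      hWp hWm hp hpO hζp hk0 ht htop hirr halg (hc0 _) (hOW _) (hci _) hτ
      (strong_of_localRoots hWp _ _ (hc _) hlocp')
      (strong_of_localRoots hWm _ _ (hc _) hlocm')
  · -- different residues: components with different residues are disjoint, `g` by CRT
    have hξunit : ∀ i i', m i ≠ m i' → IsUnit ((ζ ^ p) ^ m i - (ζ ^ p) ^ m i') := by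
      intro i i' hne
      have hN : IsUnit (((p ^ n : ℕ) : ℕ) : O) := ⟨uN, huN⟩
      have h1 : ∀ a : ℕ, ((ζ ^ p) ^ a) ^ (p ^ n) = 1 := fun a => by
        rw [← pow_mul, mul_comm, pow_mul, hζ'.pow_eq_one, one_pow]
      exact isUnit_sub_of_pow_eq_one hN (h1 _) (h1 _)
        (fun heq => hne (hζ'.pow_inj (hm i) (hm i') heq))
    have hkξ : ∀ i, k - algebraMap O F₀ ((ζ ^ p) ^ m i) ∈ (V i).nonunits := fun i => by
      rw [map_pow]; exact hkm i
    -- no closed point lies on two components with different residues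
    have hno : ∀ (s : F₀) (hW : IsSemiGaussRing W (algebraMap O (chartAlg O F₀ {s}) π)),
        LocalRoots π W s k p → ∀ 𝔫 : Ideal (chartAlg O F₀ {s}), 𝔫.IsMaximal →
        algebraMap O (chartAlg O F₀ {s}) π ∈ 𝔫 → ∀ i i', m i ≠ m i' →
        centre s (V i) (fun r => hT.mem (hW.le r) i) ≤ 𝔫 →
        centre s (V i') (fun r => hT.mem (hW.le r) i') ≤ 𝔫 → False :=
      fun s hW hloc 𝔫 h𝔫 hπ𝔫 i i' hne h₁ h₂ =>
        not_le_both_fam hT hW i i' _ _ (hξunit i i' hne) (hkξ i) (hkξ i') hloc 𝔫 h𝔫 hπ𝔫 h₁ h₂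
    -- the ideals of the chart `j` cut out by the residue classes
    let I : Fin (p ^ n) → Ideal (chartAlg O F₀ {j}) := fun v =>
      { carrier := {r | ∀ i, m i = v.val → PiMem (V i) (algebraMap O F₀ π) (r : F₀)}
        add_mem' := fun {a b} ha hb i hi => by
          have : ((a + b : chartAlg O F₀ {j}) : F₀) = (a : F₀) + (b : F₀) := rfl
          rw [this]
          exact piMem_add (ha i hi) (hb i hi)
        zero_mem' := fun i _ => piMem_zero
        smul_mem' := fun c x hx i hi => by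
          have : ((c • x : chartAlg O F₀ {j}) : F₀) = (c : F₀) * (x : F₀) := rfl
          rw [this]
          exact piMem_mul_left (hT.mem (hWp.le c) i) (hx i hi) }
    have hImem : ∀ v (r : chartAlg O F₀ {j}), r ∈ I v ↔
        ∀ i, m i = v.val → PiMem (V i) (algebraMap O F₀ π) (r : F₀) := fun v r => Iff.rfl
    have hπI : ∀ v, algebraMap O (chartAlg O F₀ {j}) π ∈ I v := fun v i _ => piMem_self hT.pi_ne
    have hIcentre : ∀ v (𝔫 : Ideal (chartAlg O F₀ {j})), 𝔫.IsMaximal → I v ≤ 𝔫 →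
        ∃ i, m i = v.val ∧ centre j (V i) (fun r => hT.mem (hWp.le r) i) ≤ 𝔫 := by
      intro v 𝔫 h𝔫 hle
      by_contra hcon
      push Not at hcon
      haveI := h𝔫.isPrime
      obtain ⟨d, hd𝔫, hdP⟩ := exists_notMem_piMem hT hWp 𝔫 (fun i => m i = v.val) hcon
      exact hd𝔫 (hle ((hImem v d).2 hdP))
    have hcop : Pairwise (Function.onFun IsCoprime I) := by
      intro v v' hvv'
      show IsCoprime (I v) (I v')
      rw [Ideal.isCoprime_iff_sup_eq]
      by_contra hne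
      obtain ⟨𝔫, h𝔫, hle⟩ := Ideal.exists_le_maximal _ hne
      have hπ𝔫 : algebraMap O (chartAlg O F₀ {j}) π ∈ 𝔫 := hle (Ideal.mem_sup_left (hπI v))
      obtain ⟨i, hi, hci'⟩ := hIcentre v 𝔫 h𝔫 (le_sup_left.trans hle)
      obtain ⟨i', hi', hci''⟩ := hIcentre v' 𝔫 h𝔫 (le_sup_right.trans hle)
      refine hno j hWp hlocp' 𝔫 h𝔫 hπ𝔫 i i' ?_ hci' hci''
      rw [hi, hi']
      exact fun h => hvv' (Fin.ext h)
    obtain ⟨gR, hgR⟩ := Ideal.exists_forall_sub_mem_ideal hcop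
      (fun v => algebraMap O (chartAlg O F₀ {j}) (ζ ^ v.val))
    obtain ⟨g, hgdef⟩ : ∃ g : F₀, g = (gR : F₀) := ⟨_, rfl⟩
    have hgW : g ∈ W := by rw [hgdef]; exact hWp.le gR
    have hgc : ∀ i, PiMem (V i) (algebraMap O F₀ π) (g - algebraMap O F₀ (ζ ^ m i)) := by
      intro i
      have h1 := (hImem ⟨m i, hm i⟩ _).1 (hgR ⟨m i, hm i⟩) i rfl
      rw [hgdef]
      exact h1
    have hgu : ∀ i, g ≠ 0 ∧ g ∈ V i ∧ g⁻¹ ∈ V i := fun i =>
      mem_and_inv_mem_of_sub (V i) (hc0 (m i)) (hT.mem (hOW _) i) (hT.mem (hci (m i)) i)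
        ((hgc i).nonunits hT.pi_ne (hT.pi_mem i))
    have hg0 : g ≠ 0 := (hgu i₀).1
    have hgiW : g⁻¹ ∈ W := (hT.mem_iff _).2 fun i => (hgu i).2.2
    have hτ := hvert g hg0 hgiW (fun i => by
      have := pow_sub_pow_piMem (hgu i).2.1 (hT.mem (hOW _) i) (hgc i) p
      rwa [hcp] at this)
    -- the weak local hypothesis on a chart
    have hweak : ∀ (s : F₀) (hW : IsSemiGaussRing W (algebraMap O (chartAlg O F₀ {s}) π)),
        LocalRoots π W s k p →
        ∀ 𝔫 : Ideal (chartAlg O F₀ {s}), 𝔫.IsMaximal →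
          algebraMap O (chartAlg O F₀ {s}) π ∈ 𝔫 → ∃ η : F₀, η ≠ 0 ∧
          (∃ a r : chartAlg O F₀ {s}, a ∉ 𝔫 ∧ r ∉ 𝔫 ∧
            k * algebraMap (chartAlg O F₀ {s}) F₀ a =
              η ^ p * algebraMap (chartAlg O F₀ {s}) F₀ r) ∧
          ∃ c : chartAlg O F₀ {s}, c ∉ 𝔫 ∧ ∀ m' : ℕ, ∃ w ∈ W,
            algebraMap (chartAlg O F₀ {s}) F₀ c * ((η⁻¹) ^ m' - (g⁻¹) ^ m') =
              algebraMap O F₀ π * w := by
      intro s hW hloc 𝔫 h𝔫 hπ𝔫
      haveI := h𝔫.isPrime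
      obtain ⟨τ, hτ0, ⟨a, r, ha, hr, har⟩, hτ1⟩ := hloc 𝔫 h𝔫 hπ𝔫
      -- some component passes through `𝔫`
      have hex : ∃ i, centre s (V i) (fun r => hT.mem (hW.le r) i) ≤ 𝔫 := by
        by_contra hcon
        push Not at hcon
        obtain ⟨d, hd𝔫, hdP⟩ := exists_notMem_piMem hT hW 𝔫 (fun _ => True) (fun i _ => hcon i)
        obtain ⟨w, hw, hdw⟩ := hT.exists_eq_mul (fun i => hdP i trivial)
        obtain ⟨y, hy⟩ := hW.sat d ⟨w, hw, hdw⟩
        apply hd𝔫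
        rw [hy]
        exact Ideal.mul_mem_right _ _ hπ𝔫
      obtain ⟨i₁, hi₁⟩ := hex
      -- the components with another residue do not pass through `𝔫`
      obtain ⟨d, hd𝔫, hdP⟩ := exists_notMem_piMem hT hW 𝔫 (fun i => m i ≠ m i₁)
        (fun i hi hle => hno s hW hloc 𝔫 h𝔫 hπ𝔫 i i₁ hi hle hi₁)
      obtain ⟨r', hr', har'⟩ := rescale_root 𝔫 _ _ (hc (m i₁)) hr har
      have hη0 : algebraMap O F₀ (ζ ^ m i₁) * τ ≠ 0 := mul_ne_zero (hc0 _) hτ0
      refine ⟨algebraMap O F₀ (ζ ^ m i₁) * τ, hη0, ⟨a, r', ha, hr', har'⟩, d, hd𝔫, fun m' => ?_⟩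
      obtain ⟨w, hw, hτw⟩ := hτ1
      have hτi : τ⁻¹ ∈ W := by
        have h1 := hW.rad w hw
        have h2 : (1 + algebraMap (chartAlg O F₀ {s}) F₀ (algebraMap O (chartAlg O F₀ {s}) π) * w) =
            τ := by
          change 1 + algebraMap O F₀ π * w = τ
          linear_combination -hτw
        rwa [h2] at h1
      have hηi : (algebraMap O F₀ (ζ ^ m i₁) * τ)⁻¹ ∈ W := by
        have h1 : (algebraMap O F₀ (ζ ^ m i₁) * τ)⁻¹ =
            algebraMap O F₀ ((ζ ^ (p ^ (n + 1) - 1)) ^ m i₁) * τ⁻¹ := by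
          rw [mul_inv, inv_eq_of_mul_eq_one_right (hcF _)]
        rw [h1]
        exact W.mul_mem (hOW _) hτi
      have hdW : (d : F₀) ∈ W := hW.le d
      apply hT.exists_eq_mul
      intro i
      by_cases hi : m i = m i₁
      · -- a component with the residue of `𝔫`
        have h1 : PiMem (V i) (algebraMap O F₀ π) (τ - 1) := hT.piMem ⟨w, hw, hτw⟩ i
        have h2 : PiMem (V i) (algebraMap O F₀ π) (algebraMap O F₀ (ζ ^ m i₁) * τ - g) := by
          have : algebraMap O F₀ (ζ ^ m i₁) * τ - g =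
              algebraMap O F₀ (ζ ^ m i₁) * (τ - 1) - (g - algebraMap O F₀ (ζ ^ m i)) := by
            rw [hi]; ring
          rw [this]
          exact piMem_sub (piMem_mul_left (hT.mem (hOW _) i) h1) (hgc i)
        have h3 := inv_sub_inv_piMem hη0 hg0 (hT.mem hηi i) (hT.mem hgiW i) h2
        have h4 := pow_sub_pow_piMem (hT.mem hηi i) (hT.mem hgiW i) h3 m'
        exact piMem_mul_left (hT.mem hdW i) h4
      · -- a component with another residue: `d ∈ π V i`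
        exact piMem_mul_right (hdP i hi)
          (sub_mem (pow_mem (hT.mem hηi i) m') (pow_mem (hT.mem hgiW i) m'))
    exact Fermat.Agent.P3G.Cover.Main.no_split_cover (K₀ := K₀) (F' := F') j hj hπ W
      hWp hWm hp hpO hζp hk0 ht htop hirr halg hg0 hgW hgiW hτ
      (hweak j hWp hlocp') (hweak j⁻¹ hWm hlocm')

end Final

end Fermat.Agent.S36.C.PowCoverFam
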