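/-
S36, block [C], file (C3) (helper18): **the contradiction at a fixed base, dévissage form, for a finite
family of vertical valuations** — helper8's `S36/C/PowCoverFam.no_split_cover_pow_fam` instantiated
at the modular function field `F₀ = FF K N`, `j = jF K N`, with the Kummer extension and the
constant-field hypothesis discharged (clone of `P3G/Assembly/AtBasePow.no_kummer_pow_at_base`, with
`TwoVal` replaced by `FamVal`; the special fibre may be non-reduced).

`K ⊆ Q̄` a field, `O ⊆ K` a discrete valuation ring with fraction field `K`, `p` a prime invertible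
in `O`, `ζ ∈ O` a primitive `p ^ (n + 1)`-th root of unity; `W = ⋂ V i ⊆ FF K N` a semilocal Gauss
ring for both charts.  If `h ≡ 1` modulo `ϖ W` has local `p ^ (n + 1)`-th roots congruent to `1`
modulo `ϖ W` at every closed point of the special fibres of both charts, then every `k` with
`k ^ (p ^ n) = h` is a `p`-th power in `Q̄ · F_N`.
-/
import Mathlib
import Fermat.Agent.N4.S18Glue.BaseMain
import Fermat.Agent.S36.C.PowCoverFam

set_option autoImplicit false
set_option linter.unusedSectionVars false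
set_option linter.style.haveILetI false

open ModularCurve Polynomial AlgebraicCurve IntermediateField

namespace Fermat.Agent.S36.C.AtBasePowFam

open Fermat.Agent.N4.Setting Fermat.Agent.N4.Chart Fermat.Agent.N4.S18Glue
  Fermat.Agent.P3G.Cover.Lift Fermat.Agent.P3G.Assembly.PowCover Fermat.Agent.S36.C.PowCoverFam

local notation "Qbar" => AlgebraicClosure ℚ

variable (K : Type) [Field K] [CharZero K] [Algebra K Qbar] [Algebra.IsAlgebraic K Qbar]
  (N : ℕ) [NeZero N] (O : Subring K) [IsDiscreteValuationRing ↥O] [IsFractionRing ↥O K]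

set_option maxHeartbeats 3200000 in
/-- **The contradiction at a fixed base, dévissage form, for a finite family of valuations.** -/
theorem no_kummer_pow_at_base_fam {ϖ : ↥O} (hϖ : Irreducible ϖ)
    (W : Subring (FF K N)) [IsIntegrallyClosed W] [IsFractionRing W (FF K N)]
    {ι : Type*} [Finite ι] [Nonempty ι] (V : ι → ValuationSubring (FF K N)) {E : ℕ}
    (hT : FamVal ϖ W V E)
    (hWp : IsSemiGaussRing W (algebraMap ↥O (chartAlg ↥O (FF K N) {jF K N}) ϖ))
    (hWm : IsSemiGaussRing W (algebraMap ↥O (chartAlg ↥O (FF K N) {(jF K N)⁻¹}) ϖ))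
    {p : ℕ} (hp : p.Prime) (hpO : IsUnit ((p : ℕ) : ↥O)) (n : ℕ) {ζ : ↥O}
    (hζ : IsPrimitiveRoot ζ (p ^ (n + 1)))
    {h k : FF K N} (hk : k ^ (p ^ n) = h)
    (hh : ∃ w ∈ W, h - 1 = algebraMap ↥O (FF K N) ϖ * w)
    (hlocp : LocalRoots ϖ W (jF K N) h (p ^ (n + 1)))
    (hlocm : LocalRoots ϖ W (jF K N)⁻¹ h (p ^ (n + 1)))
    (hnp : ∀ w : ↥(modularFunctionFieldBar N), w ^ p ≠ phiK K N k) : False := by
  -- irreducibility
  have hirrF : Irreducible (X ^ p - C (phiK K N k) : (↥(modularFunctionFieldBar N))[X]) :=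
    (X_pow_sub_C_irreducible_iff_of_prime hp).mpr hnp
  have hirr0 : Irreducible (X ^ p - C k : (FF K N)[X]) := by
    refine (X_pow_sub_C_irreducible_iff_of_prime hp).mpr fun b hb => hnp (phiK K N b) ?_
    rw [← map_pow, hb]
  haveI : Fact (Irreducible (X ^ p - C k : (FF K N)[X])) := ⟨hirr0⟩
  haveI := Fermat.Agent.N4.ModPolySetting.finiteDimensional_FF K N
  -- the Kummer extension
  let F' := AdjoinRoot (X ^ p - C k : (FF K N)[X])
  have ht : (AdjoinRoot.root (X ^ p - C k : (FF K N)[X])) ^ p = algebraMap (FF K N) F' k := by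
    have h := AdjoinRoot.eval₂_root (X ^ p - C k : (FF K N)[X])
    rw [eval₂_sub, eval₂_pow, eval₂_X, eval₂_C, sub_eq_zero] at h
    exact h
  have htop : (FF K N)⟮AdjoinRoot.root (X ^ p - C k : (FF K N)[X])⟯ = ⊤ :=
    IntermediateField.adjoin_eq_top_of_algebra _ _ (AdjoinRoot.adjoinRoot_eq_top)
  have halg : ∀ x : F', IsAlgebraic K x → x ∈ (algebraMap K F').range := by
    letI := algKBar K N
    haveI := isScalarTower_KBar K N
    exact Fermat.Agent.N4.KummerConst.algClosed_in_kummer (K := K) (L := Qbar) (phiKAlg K N)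
      (algClosed_in_FF K N) hp k hirrF _ ht htop
  exact no_split_cover_pow_fam (O := ↥O) (K₀ := K) (F₀ := FF K N) (F' := F') (jF K N)
    (Fermat.Agent.N4.FFAlgebraic.transcendental_jF K N) hϖ W V hT hWp hWm hp hpO n hζ hk hh
    ht htop hirr0 halg hlocp hlocm

end Fermat.Agent.S36.C.AtBasePowFam
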