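/-
S36, block [C], file (C4) (helper18): **generic builder of the structural inputs of
`PowCoverFam.no_split_cover_pow_fam` from uniformisers.**

`V i` (`i : ι`) valuation subrings of a field `F₀`, `W := ⋂ V i` (`iInfSubring V`).  If every `V i`
has a uniformiser `Π i` (`x ∈ 𝔪_i → x / Π i ∈ V i`) and `π = u_i · Π i ^ (e i)` with `u_i` a unit of
`V i` and `1 ≤ e i ≤ E`, then `FamVal π W V E`.  Together with the standard facts on intersections of
valuation rings (`P3G/Cover/OfValuations`) this gives all hypotheses of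
`AtBasePowFam.no_kummer_pow_at_base_fam` except the two semilocal Gauss rings and the local roots.
-/
import Mathlib
import Fermat.Agent.P3G.Cover.OfValuations
import Fermat.Agent.S36.C.AtBasePowFam

set_option autoImplicit false
set_option linter.unusedSectionVars false
set_option linter.style.haveILetI false

open Polynomial IntermediateField

namespace Fermat.Agent.S36.C.FamValOfUnif

open Fermat.Agent.P3G.Cover.Lift Fermat.Agent.P3G.Cover.OfValuations
  Fermat.Agent.P3G.Assembly.PowCover Fermat.Agent.S36.C.PowCoverFam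

universe u

section Builder

variable {O : Type*} [CommRing O] {F₀ : Type u} [Field F₀] [Algebra O F₀]
variable {ι : Type*}

/-- A power (with positive exponent) of a nonunit of a valuation subring is a nonunit. -/
theorem pow_mem_nonunits (A : ValuationSubring F₀) {x : F₀} (hx : x ∈ A.nonunits) {e : ℕ}
    (he : 1 ≤ e) : x ^ e ∈ A.nonunits := by
  rw [ValuationSubring.mem_nonunits_iff] at hx ⊢
  rw [map_pow]
  exact pow_lt_one₀ zero_le hx (by omega)

/-- the product of an element and a nonunit is a nonunit. -/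
theorem mul_mem_nonunits (A : ValuationSubring F₀) {u x : F₀} (hu : u ∈ A) (hx : x ∈ A.nonunits) :
    u * x ∈ A.nonunits := by
  rw [ValuationSubring.mem_nonunits_iff] at hx ⊢
  rw [mul_comm, map_mul]
  exact mul_lt_one_of_lt_of_le hx ((A.valuation_le_one_iff u).2 hu)

/-- **`FamVal` from uniformisers**: `π = u_i Π_i ^ (e i)`, `1 ≤ e i ≤ E`. -/
theorem famVal_of_uniformisers (V : ι → ValuationSubring F₀) (π : O) (E : ℕ)
    (Pi : ι → F₀) (e : ι → ℕ) (he : ∀ i, 1 ≤ e i ∧ e i ≤ E)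
    (hPi : ∀ i, Pi i ∈ (V i).nonunits)
    (hunif : ∀ i, ∀ x ∈ (V i).nonunits, x * (Pi i)⁻¹ ∈ V i)
    (hπ : ∀ i, ∃ u : F₀, u ∈ V i ∧ u⁻¹ ∈ V i ∧ algebraMap O F₀ π = u * Pi i ^ e i)
    (hπ0 : algebraMap O F₀ π ≠ 0) :
    FamVal π (iInfSubring V) V E where
  mem_iff x := mem_iInfSubring V x
  pi_mem i := by
    obtain ⟨u, hu, -, hπu⟩ := hπ i
    rw [hπu]
    exact mul_mem_nonunits (V i) hu (pow_mem_nonunits (V i) (hPi i) (he i).1)
  pow_unif i x hx := by
    obtain ⟨u, hu, hui, hπu⟩ := hπ i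
    have hPi0 : Pi i ≠ 0 := by
      intro h0
      apply hπ0
      rw [hπu, h0, zero_pow (by have := (he i).1; omega), mul_zero]
    have hu0 : u ≠ 0 := by
      intro h0
      apply hπ0
      rw [hπu, h0, zero_mul]
    have hy := hunif i x hx
    set y := x * (Pi i)⁻¹ with hyd
    have hxy : x = y * Pi i := by
      rw [hyd, mul_assoc, inv_mul_cancel₀ hPi0, mul_one]
    have hE : E = (E - e i) + e i := by have := (he i).2; omega
    have : x ^ E * (algebraMap O F₀ π)⁻¹ = y ^ E * (u⁻¹ * Pi i ^ (E - e i)) := by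
      rw [hπu, hxy, mul_pow]
      have h1 : Pi i ^ E = Pi i ^ (E - e i) * Pi i ^ e i := by
        rw [← pow_add, ← hE]
      rw [h1, mul_inv]
      have h2 : Pi i ^ e i ≠ 0 := pow_ne_zero _ hPi0
      field_simp
    rw [this]
    exact (V i).mul_mem _ _ (pow_mem hy E)
      ((V i).mul_mem _ _ hui (pow_mem ((V i).nonunits_subset (hPi i)) _))
  pi_ne := hπ0

end Builder

/-! ### The one-shot form at a modular function field -/

section OneShot

open ModularCurve AlgebraicCurve
open Fermat.Agent.N4.Setting Fermat.Agent.N4.Chart Fermat.Agent.N4.S18Glue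
open Fermat.Agent.N4.Cover.Main (isFractionRing_chartAlg isIntegrallyClosed_chartAlg)

local notation "Qbar" => AlgebraicClosure ℚ

variable (K : Type) [Field K] [CharZero K] [Algebra K Qbar] [Algebra.IsAlgebraic K Qbar]
  (N : ℕ) [NeZero N] (O : Subring K) [IsDiscreteValuationRing ↥O] [IsFractionRing ↥O K]

set_option maxHeartbeats 1600000 in
/-- **The contradiction at a fixed base for `W = ⋂ V i`, from uniformisers.**  All structural
hypotheses of `no_kummer_pow_at_base_fam` except the two semilocal Gauss rings are derived from: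
`V i ⊇` the finite chart (`hle`), a uniformiser `Π i` of every `V i`, and
`ϖ = u_i Π_i ^ (e i)`, `1 ≤ e i ≤ E`. -/
theorem no_kummer_pow_of_uniformisers {ϖ : ↥O} (hϖ : Irreducible ϖ)
    {ι : Type*} [Finite ι] [Nonempty ι] (V : ι → ValuationSubring (FF K N))
    (hle : ∀ i (r : chartAlg ↥O (FF K N) {jF K N}),
      algebraMap (chartAlg ↥O (FF K N) {jF K N}) (FF K N) r ∈ V i)
    (E : ℕ) (Pi : ι → FF K N) (e : ι → ℕ) (he : ∀ i, 1 ≤ e i ∧ e i ≤ E)
    (hPi : ∀ i, Pi i ∈ (V i).nonunits)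
    (hunif : ∀ i, ∀ x ∈ (V i).nonunits, x * (Pi i)⁻¹ ∈ V i)
    (hπ : ∀ i, ∃ u : FF K N, u ∈ V i ∧ u⁻¹ ∈ V i ∧
      algebraMap ↥O (FF K N) ϖ = u * Pi i ^ e i)
    (hWp : IsSemiGaussRing (iInfSubring V)
      (algebraMap ↥O (chartAlg ↥O (FF K N) {jF K N}) ϖ))
    (hWm : IsSemiGaussRing (iInfSubring V)
      (algebraMap ↥O (chartAlg ↥O (FF K N) {(jF K N)⁻¹}) ϖ))
    {p : ℕ} (hp : p.Prime) (hpO : IsUnit ((p : ℕ) : ↥O)) (n : ℕ) {ζ : ↥O}
    (hζ : IsPrimitiveRoot ζ (p ^ (n + 1)))
    {h k : FF K N} (hk : k ^ (p ^ n) = h)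
    (hh : ∃ w ∈ iInfSubring V, h - 1 = algebraMap ↥O (FF K N) ϖ * w)
    (hlocp : LocalRoots ϖ (iInfSubring V) (jF K N) h (p ^ (n + 1)))
    (hlocm : LocalRoots ϖ (iInfSubring V) (jF K N)⁻¹ h (p ^ (n + 1)))
    (hnp : ∀ w : ↥(modularFunctionFieldBar N), w ^ p ≠ phiK K N k) : False := by
  have hj : Transcendental K (jF K N) := Fermat.Agent.N4.FFAlgebraic.transcendental_jF K N
  haveI : FiniteDimensional K⟮jF K N⟯ (FF K N) :=
    Fermat.Agent.N4.ModPolySetting.finiteDimensional_FF K N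
  haveI : IsFractionRing (chartAlg ↥O (FF K N) {jF K N}) (FF K N) :=
    isFractionRing_chartAlg (O := ↥O) (K₀ := K) (jF K N) hj
  haveI : IsFractionRing ↥(iInfSubring V) (FF K N) :=
    isFractionRing_iInfSubring (R := chartAlg ↥O (FF K N) {jF K N}) V hle
  haveI : IsIntegrallyClosed ↥(iInfSubring V) :=
    isIntegrallyClosed_iInfSubring (R := chartAlg ↥O (FF K N) {jF K N}) V hle
  have hϖ0 : algebraMap ↥O (FF K N) ϖ ≠ 0 := Fermat.Agent.N4.FibreEmbedding.algebraMap_ne_zero K N O hϖ.ne_zero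
  have hT : FamVal ϖ (iInfSubring V) V E :=
    famVal_of_uniformisers V ϖ E Pi e he hPi hunif hπ hϖ0
  exact AtBasePowFam.no_kummer_pow_at_base_fam K N O hϖ (iInfSubring V) V hT hWp hWm hp hpO n hζ
    hk hh hlocp hlocm hnp

end OneShot

end Fermat.Agent.S36.C.FamValOfUnif
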