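/-
S36, block [C] (helper8), file (C5): **the two semilocal Gauss rings at the top level `M0 q²` and
the one-shot contradiction there.**

Concrete instance of `SemiGaussTower` for `N = M0` (the good-reduction base level),
`F' = FF K (M0 q q)`, `φ = α₂ ∘ α₁` (`phi2`):

* `phi2_jF`, `Rfin_top_eq`, `Rinf_top_eq` : the two standard charts of the top level are the charts
  generated by `φ j`, `φ j⁻¹`;
* `phi2_isIntegral` : `φ` is integral (both level-raising maps are finite);
* `isSemiGaussRing_top_fin`, `isSemiGaussRing_top_inf` : `hWp`, `hWm` of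
  `FamValOfUnif.no_kummer_pow_of_uniformisers` for ANY nonempty family `V i ⊇ φ(G_{M0})` with
  `ϖ ∈ 𝔪_{V i}` whose intersection is integral over `φ(G_{M0})`;
* `integral_of_only` : that integrality from "the `V i` are all the valuation subrings of `F'` over
  `φ(G_{M0})` in which `ϖ` is not a unit";
* `no_kummer_pow_top` : the one-shot contradiction at the top level (everything except the local
  roots and the uniformisers discharged).
-/
import Mathlib
import Fermat.Agent.S36.C.SemiGaussTower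
import Fermat.Agent.S36.C.FamValOfUnif

set_option autoImplicit false
set_option linter.unusedSectionVars false
set_option linter.style.haveILetI false

open Polynomial IsLocalRing

open ModularCurve Fermat.Agent.S28.Gauss Fermat.Agent.N4.Setting Fermat.Agent.N4.FibreEmbedding
open Fermat.Agent.N4F.E.DegreeLevelRaise Fermat.Agent.N4F.E.GaussDVR AlgebraicCurve
open Fermat.Agent.N4.Chart Fermat.Agent.N4F.E Fermat.Agent.N4F.E.AlphaSide
open Fermat.Agent.N4.Cover.Globalize Fermat.Agent.P3G.FibreSat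
open Fermat.Agent.P3G.Cover.Lift Fermat.Agent.P3G.Cover.OfValuations
open Fermat.Agent.P3G.Assembly.PowCover Fermat.Agent.S36.C.SemiGaussTower

noncomputable section

namespace Fermat.Agent.S36.C.SemiGaussTop

/-! ### A finite field homomorphism is integral -/

section Integral

variable {K A B : Type*} [Field K] [Field A] [Field B] [Algebra K A] [Algebra K B]

/-- A `K`-algebra homomorphism of fields with `B` finite over its field range is integral. -/
theorem isIntegral_of_finiteDimensional_fieldRange (f : A →ₐ[K] B)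
    [FiniteDimensional f.fieldRange B] : (f : A →+* B).IsIntegral := by
  intro y
  obtain ⟨P, hPm, hP⟩ := (Algebra.IsIntegral.isIntegral (R := f.fieldRange) y : IsIntegral _ y)
  have hlift : P.map (algebraMap f.fieldRange B) ∈ Polynomial.lifts (f : A →+* B) := by
    rw [Polynomial.lifts_iff_coeff_lifts]
    intro n
    rw [Polynomial.coeff_map]
    obtain ⟨a, ha⟩ := (AlgHom.mem_fieldRange).1 (P.coeff n).2
    exact ⟨a, ha⟩
  obtain ⟨Q, hQ, -, hQm⟩ :=
    Polynomial.lifts_and_natDegree_eq_and_monic hlift (hPm.map _)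
  refine ⟨Q, hQm, ?_⟩
  rw [← Polynomial.eval_map, hQ, Polynomial.eval_map]
  exact hP

end Integral

/-! ### The top level -/

section Top

variable (K : Type) [Field K] [CharZero K] (M0 q : ℕ) [NeZero M0] [NeZero q]
  (O : Subring K) [IsDiscreteValuationRing ↥O] [IsFractionRing ↥O K]

set_option quotPrecheck false in
local notation "κ" => IsLocalRing.ResidueField ↥O

/-- `φ = α₂ ∘ α₁ : FF K M0 → FF K (M0 q q)`. -/
def phi2 : FF K M0 →ₐ[K] FF K (M0 * q * q) := (alphaF K (M0 * q) q).comp (alphaF K M0 q)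

theorem phi2_apply (x : FF K M0) :
    phi2 K M0 q x = alphaF K (M0 * q) q (alphaF K M0 q x) := rfl

theorem phi2_jF : phi2 K M0 q (jF K M0) = jF K (M0 * q * q) := by
  rw [phi2_apply, alphaF_jF, alphaF_jF]

theorem phi2_jF_inv : phi2 K M0 q (jF K M0)⁻¹ = (jF K (M0 * q * q))⁻¹ := by
  rw [map_inv₀, phi2_jF]

theorem Rfin_top_eq :
    Rfin K (M0 * q * q) O = chartAlg ↥O (FF K (M0 * q * q)) {phi2 K M0 q (jF K M0)} := by
  rw [phi2_jF]

theorem Rinf_top_eq :
    Rinf K (M0 * q * q) O = chartAlg ↥O (FF K (M0 * q * q)) {phi2 K M0 q (jF K M0)⁻¹} := by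
  rw [phi2_jF_inv]

/-- `φ` is integral. -/
theorem phi2_isIntegral (ι : K →+* ℂ) : (phi2 K M0 q : FF K M0 →+* FF K (M0 * q * q)).IsIntegral := by
  haveI := finiteDimensional_alphaF K M0 q ι
  haveI := finiteDimensional_alphaF K (M0 * q) q ι
  exact RingHom.IsIntegral.trans _ _
    (isIntegral_of_finiteDimensional_fieldRange (alphaF K M0 q))
    (isIntegral_of_finiteDimensional_fieldRange (alphaF K (M0 * q) q))

variable {ι' : Type*} (V : ι' → ValuationSubring (FF K (M0 * q * q)))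

/-- The finite chart of the top level lies in every `V i ⊇ φ(G_{M0})`. -/
theorem Rfin_le_of_gauss
    (hG : ∀ i, ∀ g ∈ gaussSubalgebra K M0 O, phi2 K M0 q g ∈ V i) (i : ι')
    (r : ↥(Rfin K (M0 * q * q) O)) :
    algebraMap ↥(Rfin K (M0 * q * q) O) (FF K (M0 * q * q)) r ∈ V i := by
  have hr : (r : FF K (M0 * q * q)) ∈
      chartAlg ↥O (FF K (M0 * q * q)) {phi2 K M0 q (jF K M0)} := by
    rw [← Rfin_top_eq]; exact r.2
  exact chartAlg_le_of_gauss K M0 O (phi2 K M0 q) (V i) (hG i)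
    (jF_mem_gaussSubalgebra K M0 O) hr

/-- The chart at infinity of the top level lies in every `V i ⊇ φ(G_{M0})`. -/
theorem Rinf_le_of_gauss
    (hG : ∀ i, ∀ g ∈ gaussSubalgebra K M0 O, phi2 K M0 q g ∈ V i) (i : ι')
    (r : ↥(Rinf K (M0 * q * q) O)) :
    algebraMap ↥(Rinf K (M0 * q * q) O) (FF K (M0 * q * q)) r ∈ V i := by
  have hr : (r : FF K (M0 * q * q)) ∈
      chartAlg ↥O (FF K (M0 * q * q)) {phi2 K M0 q (jF K M0)⁻¹} := by
    rw [← Rinf_top_eq]; exact r.2
  exact chartAlg_le_of_gauss K M0 O (phi2 K M0 q) (V i) (hG i)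
    (jF_inv_mem_gaussSubalgebra K M0 O) hr

/-- **`hWp` at the top level.** -/
theorem isSemiGaussRing_top_fin [Nonempty ι']
    (hprime : (fibreIdeal K M0 O (Rfin K M0 O)).IsPrime) {ϖ : ↥O} (hϖ : Irreducible ϖ)
    (hG : ∀ i, ∀ g ∈ gaussSubalgebra K M0 O, phi2 K M0 q g ∈ V i)
    (hϖV : ∀ i, algebraMap ↥O (FF K (M0 * q * q)) ϖ ∈ (V i).nonunits)
    (hint : ∀ y : FF K (M0 * q * q), (∀ i, y ∈ V i) →
      IntegralOverGauss K M0 O (phi2 K M0 q) y) :
    IsSemiGaussRing (iInfSubring V) (algebraMap ↥O ↥(Rfin K (M0 * q * q) O) ϖ) := by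
  have h := isSemiGaussRing_of_tower K M0 O (phi2 K M0 q) V (jF_mem_gaussSubalgebra K M0 O)
    (transcendental_theta_jF K M0 O) hprime hϖ hG hϖV hint
  rw [phi2_jF] at h
  exact h

/-- **`hWm` at the top level.** -/
theorem isSemiGaussRing_top_inf [Nonempty ι']
    (hprimeInf : (fibreIdeal K M0 O (Rinf K M0 O)).IsPrime) {ϖ : ↥O} (hϖ : Irreducible ϖ)
    (hG : ∀ i, ∀ g ∈ gaussSubalgebra K M0 O, phi2 K M0 q g ∈ V i)
    (hϖV : ∀ i, algebraMap ↥O (FF K (M0 * q * q)) ϖ ∈ (V i).nonunits)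
    (hint : ∀ y : FF K (M0 * q * q), (∀ i, y ∈ V i) →
      IntegralOverGauss K M0 O (phi2 K M0 q) y) :
    IsSemiGaussRing (iInfSubring V) (algebraMap ↥O ↥(Rinf K (M0 * q * q) O) ϖ) := by
  have h := isSemiGaussRing_of_tower K M0 O (phi2 K M0 q) V (jF_inv_mem_gaussSubalgebra K M0 O)
    (transcendental_theta_jF_inv K M0 O) hprimeInf hϖ hG hϖV hint
  rw [phi2_jF_inv] at h
  exact h

/-- **The integrality hypothesis from `only`.** -/
theorem integral_of_only (ι : K →+* ℂ) {ϖ : ↥O} (hϖ : Irreducible ϖ)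
    (honly : ∀ B : ValuationSubring (FF K (M0 * q * q)),
      (∀ g ∈ gaussSubalgebra K M0 O, phi2 K M0 q g ∈ B) →
      algebraMap ↥O (FF K (M0 * q * q)) ϖ ∈ B.nonunits → ∃ i, ∀ y, y ∈ V i → y ∈ B)
    (y : FF K (M0 * q * q)) (hy : ∀ i, y ∈ V i) :
    IntegralOverGauss K M0 O (phi2 K M0 q) y :=
  integralOverGauss_of_only K M0 O (phi2 K M0 q) V hϖ (phi2_isIntegral K M0 q ι) honly hy

end Top

/-! ### The one-shot contradiction at the top level -/

section OneShot

open Fermat.Agent.N4.S18Glue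

local notation "Qbar" => AlgebraicClosure ℚ

variable (K : Type) [Field K] [CharZero K] [Algebra K Qbar] [Algebra.IsAlgebraic K Qbar]
  (M0 q : ℕ) [NeZero M0] [NeZero q]
  (O : Subring K) [IsDiscreteValuationRing ↥O] [IsFractionRing ↥O K]

/-- **The contradiction at the top level `M0 q²`.**  `V i` a finite nonempty family of valuation
subrings of `FF K (M0 q q)` containing `φ(G_{M0})`, `φ = α₂ ∘ α₁`, which are all the valuation
subrings over `φ(G_{M0})` with `ϖ` a nonunit; uniformisers `Π i` with `ϖ = u_i Π_i ^ (e i)`,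
`1 ≤ e i ≤ E`; good reduction (prime fibres of both charts) at the base level `M0` only. -/
theorem no_kummer_pow_top (ι : K →+* ℂ)
    (hprime : (fibreIdeal K M0 O (Rfin K M0 O)).IsPrime)
    (hprimeInf : (fibreIdeal K M0 O (Rinf K M0 O)).IsPrime)
    {ϖ : ↥O} (hϖ : Irreducible ϖ)
    {ι' : Type*} [Finite ι'] [Nonempty ι'] (V : ι' → ValuationSubring (FF K (M0 * q * q)))
    (hG : ∀ i, ∀ g ∈ gaussSubalgebra K M0 O, phi2 K M0 q g ∈ V i)
    (honly : ∀ B : ValuationSubring (FF K (M0 * q * q)),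
      (∀ g ∈ gaussSubalgebra K M0 O, phi2 K M0 q g ∈ B) →
      algebraMap ↥O (FF K (M0 * q * q)) ϖ ∈ B.nonunits → ∃ i, ∀ y, y ∈ V i → y ∈ B)
    (E : ℕ) (Pi : ι' → FF K (M0 * q * q)) (e : ι' → ℕ) (he : ∀ i, 1 ≤ e i ∧ e i ≤ E)
    (hPi : ∀ i, Pi i ∈ (V i).nonunits)
    (hunif : ∀ i, ∀ x ∈ (V i).nonunits, x * (Pi i)⁻¹ ∈ V i)
    (hπ : ∀ i, ∃ u : FF K (M0 * q * q), u ∈ V i ∧ u⁻¹ ∈ V i ∧
      algebraMap ↥O (FF K (M0 * q * q)) ϖ = u * Pi i ^ e i)
    {p : ℕ} (hp : p.Prime) (hpO : IsUnit ((p : ℕ) : ↥O)) (n : ℕ) {ζ : ↥O}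
    (hζ : IsPrimitiveRoot ζ (p ^ (n + 1)))
    {h k : FF K (M0 * q * q)} (hk : k ^ (p ^ n) = h)
    (hh : ∃ w ∈ iInfSubring V, h - 1 = algebraMap ↥O (FF K (M0 * q * q)) ϖ * w)
    (hlocp : LocalRoots ϖ (iInfSubring V) (jF K (M0 * q * q)) h (p ^ (n + 1)))
    (hlocm : LocalRoots ϖ (iInfSubring V) (jF K (M0 * q * q))⁻¹ h (p ^ (n + 1)))
    (hnp : ∀ w : ↥(modularFunctionFieldBar (M0 * q * q)), w ^ p ≠ phiK K (M0 * q * q) k) :
    False := by
  have hϖV : ∀ i, algebraMap ↥O (FF K (M0 * q * q)) ϖ ∈ (V i).nonunits := by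
    intro i
    obtain ⟨u, hu, -, hπu⟩ := hπ i
    rw [hπu]
    exact FamValOfUnif.mul_mem_nonunits (V i) hu (FamValOfUnif.pow_mem_nonunits (V i) (hPi i) (he i).1)
  have hint := integral_of_only K M0 q O V ι hϖ honly
  exact FamValOfUnif.no_kummer_pow_of_uniformisers K (M0 * q * q) O hϖ V
    (Rfin_le_of_gauss K M0 q O V hG) E Pi e he hPi hunif hπ
    (isSemiGaussRing_top_fin K M0 q O V hprime hϖ hG hϖV hint)
    (isSemiGaussRing_top_inf K M0 q O V hprimeInf hϖ hG hϖV hint)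
    hp hpO n hζ hk hh hlocp hlocm hnp

end OneShot

end Fermat.Agent.S36.C.SemiGaussTop
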