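/-
S36, block [C] (helper8), file (C6): **the cover contradiction for the three vertical valuations
`V20 = gaussVS`, `V11`, `V02` of `FF K (M0 q q)`**, hypothesis-driven on the field shapes of
`S36/V/ThreeVal` (helper24's field list): `only_three`, the uniformiser `Π` of `V11` with
`ϖ = w Π ^ e₁₁`, and `e = 1` at `V02`.  Everything about `V20` (the Gauss valuation of the top level)
is proved here from `N4F/E/GaussDVR` + `P3G/FibreSat`.

* `fam3 K M0 q O V11 V02 := ![gaussVS K (M0 q q) O, V11, V02]`;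
* `phi2_mem_gaussVS` : `α₂ (α₁ g) ∈ V20` for `g ∈ G_{M0}`;
* `honly_of_only_three` : the `honly` of `SemiGaussTop` from `only_three`;
* `isSemiGaussRing_three_fin/_inf` : `hWp`, `hWm` for `W = V20 ∩ V11 ∩ V02`;
* `no_kummer_pow_three` : the one-shot contradiction.
-/
import Mathlib
import Fermat.Agent.S36.C.SemiGaussTop

set_option autoImplicit false
set_option linter.unusedSectionVars false
set_option linter.style.haveILetI false

open Polynomial IsLocalRing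

open ModularCurve Fermat.Agent.S28.Gauss Fermat.Agent.N4.Setting Fermat.Agent.N4.FibreEmbedding
open Fermat.Agent.N4F.E.DegreeLevelRaise Fermat.Agent.N4F.E.GaussDVR AlgebraicCurve
open Fermat.Agent.N4.Chart Fermat.Agent.N4F.E Fermat.Agent.N4F.E.AlphaSide
open Fermat.Agent.N4.Cover.Globalize Fermat.Agent.P3G.FibreSat
open Fermat.Agent.P3G.Cover.Lift Fermat.Agent.P3G.Cover.OfValuations
open Fermat.Agent.P3G.Assembly.PowCover Fermat.Agent.S36.C.SemiGaussTower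
open Fermat.Agent.S36.C.SemiGaussTop

noncomputable section

namespace Fermat.Agent.S36.C.ThreeValCover

section Three

variable (K : Type) [Field K] [CharZero K] (M0 q : ℕ) [NeZero M0] [NeZero q]
  (O : Subring K) [IsDiscreteValuationRing ↥O] [IsFractionRing ↥O K]

set_option quotPrecheck false in
local notation "κ" => IsLocalRing.ResidueField ↥O

/-- The family `(V20, V11, V02)`, `V20` the Gauss valuation of the top level. -/
def fam3 (V11 V02 : ValuationSubring (FF K (M0 * q * q))) :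
    Fin 3 → ValuationSubring (FF K (M0 * q * q)) :=
  ![gaussVS K (M0 * q * q) O, V11, V02]

@[simp] theorem fam3_zero (V11 V02 : ValuationSubring (FF K (M0 * q * q))) :
    fam3 K M0 q O V11 V02 0 = gaussVS K (M0 * q * q) O := rfl

@[simp] theorem fam3_one (V11 V02 : ValuationSubring (FF K (M0 * q * q))) :
    fam3 K M0 q O V11 V02 1 = V11 := rfl

@[simp] theorem fam3_two (V11 V02 : ValuationSubring (FF K (M0 * q * q))) :
    fam3 K M0 q O V11 V02 2 = V02 := rfl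

theorem forall_fam3 {V11 V02 : ValuationSubring (FF K (M0 * q * q))}
    {P : ValuationSubring (FF K (M0 * q * q)) → Prop} :
    (∀ i, P (fam3 K M0 q O V11 V02 i)) ↔
      P (gaussVS K (M0 * q * q) O) ∧ P V11 ∧ P V02 := by
  constructor
  · intro h
    exact ⟨h 0, h 1, h 2⟩
  · rintro ⟨h0, h1, h2⟩ i
    fin_cases i
    · exact h0
    · exact h1
    · exact h2

/-- `α₂ (α₁ g) ∈ V20` for `g` in the Gauss ring of the base level. -/
theorem phi2_mem_gaussVS {g : FF K M0} (hg : g ∈ gaussSubalgebra K M0 O) :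
    phi2 K M0 q g ∈ gaussVS K (M0 * q * q) O := by
  rw [mem_gaussVS_iff, phi2_apply]
  exact alphaF_mem K O (M0 * q) q (alphaF_mem K O M0 q hg)

/-- The uniformiser of `O` lies in the maximal ideal of `V20`. -/
theorem unif_mem_nonunits_gaussVS {ϖ : ↥O} (hϖ : Irreducible ϖ) :
    algebraMap ↥O (FF K (M0 * q * q)) ϖ ∈ (gaussVS K (M0 * q * q) O).nonunits := by
  rw [mem_nonunits_gaussVS_iff]
  exact ⟨(gaussSubalgebra K (M0 * q * q) O).algebraMap_mem ϖ, theta_unif K (M0 * q * q) O hϖ⟩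

/-- Constants of `O` lie in every valuation subring containing `φ(G_{M0})`. -/
theorem algebraMap_O_mem (B : ValuationSubring (FF K (M0 * q * q)))
    (hB : ∀ g ∈ gaussSubalgebra K M0 O, phi2 K M0 q g ∈ B) (a : ↥O) :
    algebraMap ↥O (FF K (M0 * q * q)) a ∈ B := by
  rw [← phi_algebraMap_O K M0 O (phi2 K M0 q)]
  exact hB _ ((gaussSubalgebra K M0 O).algebraMap_mem a)

/-- In a valuation subring containing `φ(G_{M0})`, if one uniformiser of `O` is a nonunit then all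
are. -/
theorem irreducible_mem_nonunits (B : ValuationSubring (FF K (M0 * q * q)))
    (hB : ∀ g ∈ gaussSubalgebra K M0 O, phi2 K M0 q g ∈ B) {ϖ : ↥O} (hϖ : Irreducible ϖ)
    (hϖB : algebraMap ↥O (FF K (M0 * q * q)) ϖ ∈ B.nonunits) {ϖ' : ↥O} (hϖ' : Irreducible ϖ') :
    algebraMap K (FF K (M0 * q * q)) (ϖ' : K) ∈ B.nonunits := by
  obtain ⟨u, hu⟩ := IsDiscreteValuationRing.associated_of_irreducible ↥O hϖ hϖ'
  have h1 : algebraMap K (FF K (M0 * q * q)) (ϖ' : K) =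
      algebraMap ↥O (FF K (M0 * q * q)) (u : ↥O) * algebraMap ↥O (FF K (M0 * q * q)) ϖ := by
    rw [← map_mul, mul_comm (u : ↥O) ϖ, hu]
    rfl
  rw [h1]
  exact FamValOfUnif.mul_mem_nonunits B (algebraMap_O_mem K M0 q O B hB _) hϖB

variable (V11 V02 : ValuationSubring (FF K (M0 * q * q)))

/-- **`honly` from `only_three`.** -/
theorem honly_of_only_three {ϖ : ↥O} (hϖ : Irreducible ϖ)
    (only_three : ∀ B : ValuationSubring (FF K (M0 * q * q)),
      (∀ g ∈ gaussSubalgebra K M0 O, alphaF K (M0 * q) q (alphaF K M0 q g) ∈ B) →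
      (∀ ϖ' : ↥O, Irreducible ϖ' → algebraMap K (FF K (M0 * q * q)) (ϖ' : K) ∈ B.nonunits) →
      B = gaussVS K (M0 * q * q) O ∨ B = V11 ∨ B = V02)
    (B : ValuationSubring (FF K (M0 * q * q)))
    (hB : ∀ g ∈ gaussSubalgebra K M0 O, phi2 K M0 q g ∈ B)
    (hϖB : algebraMap ↥O (FF K (M0 * q * q)) ϖ ∈ B.nonunits) :
    ∃ i, ∀ y, y ∈ fam3 K M0 q O V11 V02 i → y ∈ B := by
  rcases only_three B hB
    (fun ϖ' hϖ' => irreducible_mem_nonunits K M0 q O B hB hϖ hϖB hϖ') with h | h | h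
  · exact ⟨0, fun y hy => by rw [h]; exact hy⟩
  · exact ⟨1, fun y hy => by rw [h]; exact hy⟩
  · exact ⟨2, fun y hy => by rw [h]; exact hy⟩

variable {V11 V02}

/-- **`hWp` for `W = V20 ∩ V11 ∩ V02`.** -/
theorem isSemiGaussRing_three_fin (ι : K →+* ℂ)
    (hprime : (fibreIdeal K M0 O (Rfin K M0 O)).IsPrime) {ϖ : ↥O} (hϖ : Irreducible ϖ)
    (hG11 : ∀ g ∈ gaussSubalgebra K M0 O, phi2 K M0 q g ∈ V11)
    (hG02 : ∀ g ∈ gaussSubalgebra K M0 O, phi2 K M0 q g ∈ V02)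
    (hϖ11 : algebraMap ↥O (FF K (M0 * q * q)) ϖ ∈ V11.nonunits)
    (hϖ02 : algebraMap ↥O (FF K (M0 * q * q)) ϖ ∈ V02.nonunits)
    (only_three : ∀ B : ValuationSubring (FF K (M0 * q * q)),
      (∀ g ∈ gaussSubalgebra K M0 O, alphaF K (M0 * q) q (alphaF K M0 q g) ∈ B) →
      (∀ ϖ' : ↥O, Irreducible ϖ' → algebraMap K (FF K (M0 * q * q)) (ϖ' : K) ∈ B.nonunits) →
      B = gaussVS K (M0 * q * q) O ∨ B = V11 ∨ B = V02) :
    IsSemiGaussRing (iInfSubring (fam3 K M0 q O V11 V02))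
      (algebraMap ↥O ↥(Rfin K (M0 * q * q) O) ϖ) :=
  isSemiGaussRing_top_fin K M0 q O (fam3 K M0 q O V11 V02) hprime hϖ
    ((forall_fam3 K M0 q O (P := fun B => ∀ g ∈ gaussSubalgebra K M0 O, phi2 K M0 q g ∈ B)).2
      ⟨fun g hg => phi2_mem_gaussVS K M0 q O hg, hG11, hG02⟩)
    ((forall_fam3 K M0 q O
      (P := fun B => algebraMap ↥O (FF K (M0 * q * q)) ϖ ∈ B.nonunits)).2
      ⟨unif_mem_nonunits_gaussVS K M0 q O hϖ, hϖ11, hϖ02⟩)
    (integral_of_only K M0 q O (fam3 K M0 q O V11 V02) ι hϖ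
      (honly_of_only_three K M0 q O V11 V02 hϖ only_three))

/-- **`hWm` for `W = V20 ∩ V11 ∩ V02`.** -/
theorem isSemiGaussRing_three_inf (ι : K →+* ℂ)
    (hprimeInf : (fibreIdeal K M0 O (Rinf K M0 O)).IsPrime) {ϖ : ↥O} (hϖ : Irreducible ϖ)
    (hG11 : ∀ g ∈ gaussSubalgebra K M0 O, phi2 K M0 q g ∈ V11)
    (hG02 : ∀ g ∈ gaussSubalgebra K M0 O, phi2 K M0 q g ∈ V02)
    (hϖ11 : algebraMap ↥O (FF K (M0 * q * q)) ϖ ∈ V11.nonunits)
    (hϖ02 : algebraMap ↥O (FF K (M0 * q * q)) ϖ ∈ V02.nonunits)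
    (only_three : ∀ B : ValuationSubring (FF K (M0 * q * q)),
      (∀ g ∈ gaussSubalgebra K M0 O, alphaF K (M0 * q) q (alphaF K M0 q g) ∈ B) →
      (∀ ϖ' : ↥O, Irreducible ϖ' → algebraMap K (FF K (M0 * q * q)) (ϖ' : K) ∈ B.nonunits) →
      B = gaussVS K (M0 * q * q) O ∨ B = V11 ∨ B = V02) :
    IsSemiGaussRing (iInfSubring (fam3 K M0 q O V11 V02))
      (algebraMap ↥O ↥(Rinf K (M0 * q * q) O) ϖ) :=
  isSemiGaussRing_top_inf K M0 q O (fam3 K M0 q O V11 V02) hprimeInf hϖ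
    ((forall_fam3 K M0 q O (P := fun B => ∀ g ∈ gaussSubalgebra K M0 O, phi2 K M0 q g ∈ B)).2
      ⟨fun g hg => phi2_mem_gaussVS K M0 q O hg, hG11, hG02⟩)
    ((forall_fam3 K M0 q O
      (P := fun B => algebraMap ↥O (FF K (M0 * q * q)) ϖ ∈ B.nonunits)).2
      ⟨unif_mem_nonunits_gaussVS K M0 q O hϖ, hϖ11, hϖ02⟩)
    (integral_of_only K M0 q O (fam3 K M0 q O V11 V02) ι hϖ
      (honly_of_only_three K M0 q O V11 V02 hϖ only_three))

end Three

/-! ### The one-shot contradiction -/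

section OneShot

open Fermat.Agent.N4.S18Glue

local notation "Qbar" => AlgebraicClosure ℚ

variable (K : Type) [Field K] [CharZero K] [Algebra K Qbar] [Algebra.IsAlgebraic K Qbar]
  (M0 q : ℕ) [NeZero M0] [NeZero q]
  (O : Subring K) [IsDiscreteValuationRing ↥O] [IsFractionRing ↥O K]

/-- **The cover contradiction for `W = V20 ∩ V11 ∩ V02`.**  Inputs in the field shapes of
`S36/V/ThreeVal`: `only_three`, the uniformiser `Π` of `V11` with `ϖ = w Π ^ e₁₁` (`e₁₁ = q − 1`),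
`e = 1` at `V02`; good reduction at the base level `M0` only. -/
theorem no_kummer_pow_three (ι : K →+* ℂ)
    (hprime : (fibreIdeal K M0 O (Rfin K M0 O)).IsPrime)
    (hprimeInf : (fibreIdeal K M0 O (Rinf K M0 O)).IsPrime)
    {ϖ : ↥O} (hϖ : Irreducible ϖ)
    {V11 V02 : ValuationSubring (FF K (M0 * q * q))}
    (hG11 : ∀ g ∈ gaussSubalgebra K M0 O, phi2 K M0 q g ∈ V11)
    (hG02 : ∀ g ∈ gaussSubalgebra K M0 O, phi2 K M0 q g ∈ V02)
    (only_three : ∀ B : ValuationSubring (FF K (M0 * q * q)),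
      (∀ g ∈ gaussSubalgebra K M0 O, alphaF K (M0 * q) q (alphaF K M0 q g) ∈ B) →
      (∀ ϖ' : ↥O, Irreducible ϖ' → algebraMap K (FF K (M0 * q * q)) (ϖ' : K) ∈ B.nonunits) →
      B = gaussVS K (M0 * q * q) O ∨ B = V11 ∨ B = V02)
    (Pi : FF K (M0 * q * q)) (e11 : ℕ) (he11 : 1 ≤ e11)
    (Pi_mem_nonunits : Pi ∈ V11.nonunits)
    (unif_V11 : ∀ y ∈ V11.nonunits, y * Pi⁻¹ ∈ V11)
    (ram_V11 : ∃ w : FF K (M0 * q * q), w ∈ V11 ∧ w⁻¹ ∈ V11 ∧
      algebraMap ↥O (FF K (M0 * q * q)) ϖ = w * Pi ^ e11)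
    (hϖ02 : algebraMap ↥O (FF K (M0 * q * q)) ϖ ∈ V02.nonunits)
    (ram_one_V02 : ∀ y ∈ V02.nonunits, y * (algebraMap ↥O (FF K (M0 * q * q)) ϖ)⁻¹ ∈ V02)
    {p : ℕ} (hp : p.Prime) (hpO : IsUnit ((p : ℕ) : ↥O)) (n : ℕ) {ζ : ↥O}
    (hζ : IsPrimitiveRoot ζ (p ^ (n + 1)))
    {h k : FF K (M0 * q * q)} (hk : k ^ (p ^ n) = h)
    (hh : ∃ w ∈ iInfSubring (fam3 K M0 q O V11 V02),
      h - 1 = algebraMap ↥O (FF K (M0 * q * q)) ϖ * w)
    (hlocp : LocalRoots ϖ (iInfSubring (fam3 K M0 q O V11 V02)) (jF K (M0 * q * q)) h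
      (p ^ (n + 1)))
    (hlocm : LocalRoots ϖ (iInfSubring (fam3 K M0 q O V11 V02)) (jF K (M0 * q * q))⁻¹ h
      (p ^ (n + 1)))
    (hnp : ∀ w : ↥(modularFunctionFieldBar (M0 * q * q)), w ^ p ≠ phiK K (M0 * q * q) k) :
    False := by
  set πF : FF K (M0 * q * q) := algebraMap ↥O (FF K (M0 * q * q)) ϖ with hπF
  have hπ20 := unif_mem_nonunits_gaussVS K M0 q O hϖ
  refine no_kummer_pow_top K M0 q O ι hprime hprimeInf hϖ (fam3 K M0 q O V11 V02)
    ((forall_fam3 K M0 q O (P := fun B => ∀ g ∈ gaussSubalgebra K M0 O, phi2 K M0 q g ∈ B)).2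
      ⟨fun g hg => phi2_mem_gaussVS K M0 q O hg, hG11, hG02⟩)
    (honly_of_only_three K M0 q O V11 V02 hϖ only_three)
    e11 ![πF, Pi, πF] ![1, e11, 1] ?_ ?_ ?_ ?_ hp hpO n hζ hk hh hlocp hlocm hnp
  · intro i
    fin_cases i
    · exact ⟨le_refl 1, he11⟩
    · exact ⟨he11, le_refl _⟩
    · exact ⟨le_refl 1, he11⟩
  · intro i
    fin_cases i
    · exact hπ20
    · exact Pi_mem_nonunits
    · exact hϖ02
  · intro i
    fin_cases i
    · intro x hx
      exact mul_inv_mem_gaussVS K O hϖ hx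
    · exact unif_V11
    · exact ram_one_V02
  · intro i
    fin_cases i
    · refine ⟨1, (gaussVS K (M0 * q * q) O).one_mem, by rw [inv_one]; exact (gaussVS K (M0 * q * q) O).one_mem, ?_⟩
      show πF = 1 * πF ^ 1
      rw [one_mul, pow_one]
    · exact ram_V11
    · refine ⟨1, V02.one_mem, by rw [inv_one]; exact V02.one_mem, ?_⟩
      show πF = 1 * πF ^ 1
      rw [one_mul, pow_one]

end OneShot

end Fermat.Agent.S36.C.ThreeValCover
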