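/-
S36, block [C] (helper8), file (C1): **the semilocal Gauss ring at the top of a tower, without
reducedness.**

`(K, O)` a level with good reduction at level `N` (`O ⊆ K` a discrete valuation ring, uniformiser
`ϖ`, `G_N` the Gauss valuation ring of `FF K N`, prime fibre ideal on the chart
`chartAlg O (FF K N) {s}`), `φ : FF K N →ₐ[K] F'` ANY `K`-algebra homomorphism into a field `F'`
(in the application `F' = FF K (N q q)`, `φ = α ∘ α`).

* `mem_chartAlg_of_mul_mem` : if `y ∈ F'` is integral over `φ(G_N)` and `ϖ y` lies in the chart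
  `chartAlg O F' {φ s}` then `y` lies in the chart  (`P3G/FibreSat.mem_chartAlg_of_mul_mem` with the
  level-raising map replaced by an arbitrary `φ`; same proof: `isIntegralElem_of_smul`).
* `isSemiGaussRing_of_tower` : for a nonempty family of valuation subrings `V i ⊇ φ(G_N)` of `F'`
  with `ϖ ∈ 𝔪_{V i}` such that every element of `⋂ V i` is integral over `φ(G_N)`,
  `⋂ V i` is a semilocal Gauss ring for `(chartAlg O F' {φ s}, ϖ)` — no reducedness of the fibre,
  no Krull, no going-down.
* `isIntegralElem_of_only` : the integrality hypothesis from "the `V i` are ALL the valuation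
  subrings of `F'` over `φ(G_N)` in which `ϖ` is not a unit" (Mathlib's
  `Subring.eq_iInf_of_isIntegrallyClosedIn`).
-/
import Mathlib
import Fermat.Agent.P3G.FibreSat

set_option autoImplicit false
set_option linter.unusedSectionVars false
set_option linter.style.haveILetI false

open Polynomial IsLocalRing

open ModularCurve Fermat.Agent.S28.Gauss Fermat.Agent.N4.Setting Fermat.Agent.N4.FibreEmbedding
open Fermat.Agent.N4F.E.DegreeLevelRaise Fermat.Agent.N4F.E.GaussDVR AlgebraicCurve
open Fermat.Agent.N4.Chart Fermat.Agent.N4F.E Fermat.Agent.N4F.E.AlphaSide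
open Fermat.Agent.N4.Cover.Globalize Fermat.Agent.P3G.FibreSat
open Fermat.Agent.P3G.Cover.Lift Fermat.Agent.P3G.Cover.OfValuations

noncomputable section

namespace Fermat.Agent.S36.C.SemiGaussTower

section Tower

variable (K : Type) [Field K] [CharZero K] (N : ℕ) [NeZero N]
  (O : Subring K) [IsDiscreteValuationRing ↥O] [IsFractionRing ↥O K]
variable {F' : Type*} [Field F'] [Algebra K F'] [Algebra ↥O F'] [IsScalarTower ↥O K F']
  (φ : FF K N →ₐ[K] F')

set_option quotPrecheck false in
local notation "κ" => IsLocalRing.ResidueField ↥O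

/-- `φ` as an `O`-algebra homomorphism. -/
def phiO : FF K N →ₐ[↥O] F' := φ.restrictScalars ↥O

theorem phiO_apply (x : FF K N) : phiO K N O φ x = φ x := rfl

theorem phi_algebraMap_O (a : ↥O) :
    φ (algebraMap ↥O (FF K N) a) = algebraMap ↥O F' a := by
  rw [IsScalarTower.algebraMap_apply ↥O K (FF K N),
    IsScalarTower.algebraMap_apply ↥O K F', AlgHom.commutes]

/-- `φ` maps a chart of level `N` into the corresponding chart of `F'`. -/
theorem phi_mem_chartAlg {s : FF K N} {r : FF K N} (hr : r ∈ chartAlg ↥O (FF K N) {s}) :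
    φ r ∈ chartAlg ↥O F' {φ s} := by
  rw [mem_chartAlg_iff] at hr ⊢
  have him : Algebra.adjoin ↥O ({φ s} : Set F') =
      (Algebra.adjoin ↥O ({s} : Set (FF K N))).map (phiO K N O φ) := by
    rw [AlgHom.map_adjoin, Set.image_singleton]
    rfl
  obtain ⟨p, hp, hpr⟩ := hr
  let g : ↥(Algebra.adjoin ↥O ({s} : Set (FF K N))) →+*
      ↥(Algebra.adjoin ↥O ({φ s} : Set F')) :=
    ((phiO K N O φ : FF K N →+* F').comp
      (algebraMap ↥(Algebra.adjoin ↥O ({s} : Set (FF K N))) (FF K N))).codRestrict _ (fun z => by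
        rw [him]
        exact ⟨z, z.2, rfl⟩)
  refine ⟨p.map g, hp.map _, ?_⟩
  rw [Polynomial.eval₂_map]
  have : (algebraMap ↥(Algebra.adjoin ↥O ({φ s} : Set F')) F').comp g =
      (phiO K N O φ : FF K N →+* F').comp
      (algebraMap ↥(Algebra.adjoin ↥O ({s} : Set (FF K N))) (FF K N)) := by
    ext z
    rfl
  rw [this]
  have h3 := Polynomial.hom_eval₂ p (algebraMap ↥(Algebra.adjoin ↥O ({s} : Set (FF K N))) (FF K N))
    (phiO K N O φ : FF K N →+* F') r
  rw [hpr, map_zero] at h3
  exact h3.symm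

/-- "`y` is integral over `φ(G_N)`". -/
def IntegralOverGauss (y : F') : Prop :=
  ((φ : FF K N →+* F').comp (gaussSubalgebra K N O).toSubring.subtype).IsIntegralElem y

/-- A chart of `F'` generated by `φ s`, `s ∈ G_N`, consists of elements integral over `φ(G_N)`. -/
theorem integralOverGauss_of_mem_chartAlg {s : FF K N} (hs : s ∈ gaussSubalgebra K N O) {r : F'}
    (hr : r ∈ chartAlg ↥O F' {φ s}) : IntegralOverGauss K N O φ r :=
  isIntegralElem_of_isIntegral_adjoin_image (phiO K N O φ) (gaussSubalgebra K N O) {s}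
    (Set.singleton_subset_iff.mpr hs) (x := r) (by
      rw [Set.image_singleton]
      exact mem_chartAlg_iff.mp hr)

/-- **Descent from the integral closure of `φ(G_N)` to the charts of `F'`**: if `y` is integral over
`φ(G_N)` and `ϖ y` lies in the chart, then `y` lies in the chart. -/
theorem mem_chartAlg_of_mul_mem {s : FF K N} (hs : s ∈ gaussSubalgebra K N O)
    (htr : Transcendental κ (theta K N O ⟨s, hs⟩))
    (hprime : (fibreIdeal K N O (chartAlg ↥O (FF K N) {s})).IsPrime)
    {ϖ : ↥O} (hϖ : Irreducible ϖ) {y : F'} (hy : IntegralOverGauss K N O φ y)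
    (hx : algebraMap ↥O F' ϖ * y ∈ chartAlg ↥O F' {φ s}) :
    y ∈ chartAlg ↥O F' {φ s} := by
  have hϖF : algebraMap ↥O (FF K N) ϖ ≠ 0 := algebraMap_ne_zero K N O hϖ.ne_zero
  -- integrality of `y` over `φ(chart)`
  have key : ((φ : FF K N →+* F').comp
      (chartAlg ↥O (FF K N) {s}).toSubring.subtype).IsIntegralElem y := by
    refine isIntegralElem_of_smul (φ : FF K N →+* F')
      (gaussSubalgebra K N O).toSubring (chartAlg ↥O (FF K N) {s}).toSubring ?_ ?_
      (algebraMap ↥O (FF K N) ϖ) hϖF ((gaussSubalgebra K N O).algebraMap_mem ϖ) ?_ ?_ ?_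
      (x := algebraMap ↥O F' ϖ * y) ?_
    · -- `G_N` is integrally closed in `FF K N`
      intro z hz
      have hz' : IsIntegral ↥(gaussSubalgebra K N O) z := hz
      obtain ⟨t, ht⟩ := IsIntegrallyClosed.isIntegral_iff.mp hz'
      rw [← ht]
      exact t.2
    · -- the chart is integrally closed in `FF K N`
      intro z hz
      have hz' : IsIntegral ↥(chartAlg ↥O (FF K N) {s}) z := hz
      exact isIntegral_chartAlg_iff.mp hz'
    · intro r hr h
      exact sat_level K N O hs htr hprime hϖ hr h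
    · -- `ϖ y` is integral over `φ(chart)`
      have h1 := isIntegralElem_of_isIntegral_adjoin_image (phiO K N O φ)
        (chartAlg ↥O (FF K N) {s}) {s} (subset_chartAlg {s})
        (x := algebraMap ↥O F' ϖ * y) (by
          rw [Set.image_singleton]
          exact mem_chartAlg_iff.mp hx)
      exact h1
    · exact hy
    · show _ = φ (algebraMap ↥O (FF K N) ϖ) * y
      rw [phi_algebraMap_O]
  -- conclude
  have h2 : IsIntegral ↥(chartAlg ↥O F' {φ s}) y := by
    refine KummerNorm.isIntegralElem_of_comp _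
      (algebraMap ↥(chartAlg ↥O F' {φ s}) F')
      (((φ : FF K N →+* F').comp
        (chartAlg ↥O (FF K N) {s}).toSubring.subtype).codRestrict
          (chartAlg ↥O F' {φ s}).toSubring
          (fun r => phi_mem_chartAlg K N O φ r.2)) (fun _ => rfl) key
  exact isIntegral_chartAlg_iff.mp h2

end Tower

/-! ### The semilocal Gauss ring -/

section SemiGauss

variable (K : Type) [Field K] [CharZero K] (N : ℕ) [NeZero N]
  (O : Subring K) [IsDiscreteValuationRing ↥O] [IsFractionRing ↥O K]
variable {F' : Type*} [Field F'] [Algebra K F'] [Algebra ↥O F'] [IsScalarTower ↥O K F']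
  (φ : FF K N →ₐ[K] F')
variable {ι : Type*} (V : ι → ValuationSubring F')

set_option quotPrecheck false in
local notation "κ" => IsLocalRing.ResidueField ↥O

/-- An element integral over `φ(G_N)` lies in every valuation subring containing `φ(G_N)`. -/
theorem mem_of_integralOverGauss (B : ValuationSubring F')
    (hG : ∀ g ∈ gaussSubalgebra K N O, φ g ∈ B) {y : F'} (hy : IntegralOverGauss K N O φ y) :
    y ∈ B := by
  have h1 : (B.subtype : ↥B →+* F').IsIntegralElem y := by
    refine KummerNorm.isIntegralElem_of_comp _ (B.subtype : ↥B →+* F')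
      (((φ : FF K N →+* F').comp (gaussSubalgebra K N O).toSubring.subtype).codRestrict
        B.toSubring (fun g => hG g.1 g.2)) (fun _ => rfl) hy
  have h2 : IsIntegral ↥B y := h1
  obtain ⟨z, hz⟩ := IsIntegrallyClosed.algebraMap_eq_of_integral h2
  rw [← hz]
  exact z.2

/-- The charts of `F'` generated by `φ s`, `s ∈ G_N`, lie in every valuation subring containing
`φ(G_N)`. -/
theorem chartAlg_le_of_gauss (B : ValuationSubring F')
    (hG : ∀ g ∈ gaussSubalgebra K N O, φ g ∈ B) {s : FF K N} (hs : s ∈ gaussSubalgebra K N O)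
    {r : F'} (hr : r ∈ chartAlg ↥O F' {φ s}) : r ∈ B :=
  mem_of_integralOverGauss K N O φ B hG (integralOverGauss_of_mem_chartAlg K N O φ hs hr)

/-- **`hsat` for the chart `chartAlg O F' {φ s}`** (the shape of
`Cover.OfValuations.isSemiGaussRing_iInf`), from "`⋂ V i` is integral over `φ(G_N)`". -/
theorem hsat_of_tower {s : FF K N} (hs : s ∈ gaussSubalgebra K N O)
    (htr : Transcendental κ (theta K N O ⟨s, hs⟩))
    (hprime : (fibreIdeal K N O (chartAlg ↥O (FF K N) {s})).IsPrime)
    {ϖ : ↥O} (hϖ : Irreducible ϖ) (hϖF : algebraMap ↥O F' ϖ ≠ 0)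
    (hint : ∀ y : F', (∀ i, y ∈ V i) → IntegralOverGauss K N O φ y)
    (r : ↥(chartAlg ↥O F' {φ s}))
    (h : ∀ i, algebraMap ↥(chartAlg ↥O F' {φ s}) F' r *
      (algebraMap ↥(chartAlg ↥O F' {φ s}) F'
        (algebraMap ↥O ↥(chartAlg ↥O F' {φ s}) ϖ))⁻¹ ∈ V i) :
    algebraMap ↥O ↥(chartAlg ↥O F' {φ s}) ϖ ∣ r := by
  have hy : IntegralOverGauss K N O φ ((r : F') * (algebraMap ↥O F' ϖ)⁻¹) := hint _ h
  have hmem := mem_chartAlg_of_mul_mem K N O φ hs htr hprime hϖ hy (by
    have : algebraMap ↥O F' ϖ * ((r : F') * (algebraMap ↥O F' ϖ)⁻¹) = (r : F') := by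
      field_simp
    rw [this]
    exact r.2)
  refine ⟨⟨_, hmem⟩, ?_⟩
  apply Subtype.ext
  show (r : F') = algebraMap ↥O F' ϖ * ((r : F') * (algebraMap ↥O F' ϖ)⁻¹)
  field_simp

/-- **The semilocal Gauss ring at the top of a tower.**  `V i` a nonempty family of valuation
subrings of `F'` containing `φ(G_N)`, with `ϖ ∈ 𝔪_{V i}`, such that every element of `⋂ V i` is
integral over `φ(G_N)`.  Then `⋂ V i` is a semilocal Gauss ring for the chart
`chartAlg O F' {φ s}` and `ϖ` (`s ∈ G_N` with transcendental reduction and prime fibre ideal at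
level `N`): no reducedness of the fibre of `F'` is needed. -/
theorem isSemiGaussRing_of_tower [Nonempty ι] {s : FF K N} (hs : s ∈ gaussSubalgebra K N O)
    (htr : Transcendental κ (theta K N O ⟨s, hs⟩))
    (hprime : (fibreIdeal K N O (chartAlg ↥O (FF K N) {s})).IsPrime)
    {ϖ : ↥O} (hϖ : Irreducible ϖ)
    (hG : ∀ i, ∀ g ∈ gaussSubalgebra K N O, φ g ∈ V i)
    (hϖV : ∀ i, algebraMap ↥O F' ϖ ∈ (V i).nonunits)
    (hint : ∀ y : F', (∀ i, y ∈ V i) → IntegralOverGauss K N O φ y) :
    IsSemiGaussRing (iInfSubring V) (algebraMap ↥O ↥(chartAlg ↥O F' {φ s}) ϖ) := by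
  have hϖF : algebraMap ↥O F' ϖ ≠ 0 := by
    rw [← phi_algebraMap_O K N O φ]
    exact (_root_.map_ne_zero _).mpr (algebraMap_ne_zero K N O hϖ.ne_zero)
  exact isSemiGaussRing_iInf V _
    (fun i r => chartAlg_le_of_gauss K N O φ (V i) (hG i) hs r.2)
    hϖV hϖF (hsat_of_tower K N O φ V hs htr hprime hϖ hϖF hint)

end SemiGauss

/-! ### The integrality hypothesis from "the `V i` are all the extensions" -/

section Only

variable (K : Type) [Field K] [CharZero K] (N : ℕ) [NeZero N]
  (O : Subring K) [IsDiscreteValuationRing ↥O] [IsFractionRing ↥O K]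
variable {F' : Type*} [Field F'] [Algebra K F'] [Algebra ↥O F'] [IsScalarTower ↥O K F']
  (φ : FF K N →ₐ[K] F')
variable {ι : Type*} (V : ι → ValuationSubring F')

/-- A valuation subring of `F'` containing `φ(G_N)` in which `ϖ` is a unit contains `φ(FF K N)`. -/
theorem phi_mem_of_unit {ϖ : ↥O} (hϖ : Irreducible ϖ) (B : ValuationSubring F')
    (hG : ∀ g ∈ gaussSubalgebra K N O, φ g ∈ B)
    (hnu : algebraMap ↥O F' ϖ ∉ B.nonunits) (x : FF K N) : φ x ∈ B := by
  have hϖB : algebraMap ↥O F' ϖ ∈ B := by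
    rw [← phi_algebraMap_O K N O φ]
    exact hG _ ((gaussSubalgebra K N O).algebraMap_mem ϖ)
  have hϖinv : (algebraMap ↥O F' ϖ)⁻¹ ∈ B := by
    have h1 : ¬ B.valuation (algebraMap ↥O F' ϖ) < 1 := fun h => hnu (B.mem_nonunits_iff.2 h)
    have h2 : 1 ≤ B.valuation (algebraMap ↥O F' ϖ) := not_lt.mp h1
    rw [← B.valuation_le_one_iff, map_inv₀]
    exact inv_le_one_of_one_le₀ h2
  by_cases hx0 : x = 0
  · rw [hx0, map_zero]; exact B.zero_mem
  rcases mem_or_inv_mem K N O x hx0 with hx | ⟨hx, -⟩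
  · exact hG x hx
  · have hne : (⟨x⁻¹, hx⟩ : gaussSubalgebra K N O) ≠ 0 := fun h0 =>
      inv_ne_zero hx0 (congrArg Subtype.val h0)
    obtain ⟨n, u, hu, hxu⟩ := exists_eq_pow_mul K N O hϖ ⟨x⁻¹, hx⟩ hne
    have hui := inv_mem_of_theta_ne_zero K N O u hu
    have hxu' : x⁻¹ = (algebraMap ↥O (FF K N) ϖ) ^ n * (u : FF K N) := by
      have := congrArg (fun z : gaussSubalgebra K N O => (z : FF K N)) hxu
      simpa using this
    have hx' : x = ((algebraMap ↥O (FF K N) ϖ)⁻¹) ^ n * (u : FF K N)⁻¹ := by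
      rw [← inv_inv x, hxu', mul_inv, inv_pow]
    rw [hx', map_mul, map_pow, map_inv₀, phi_algebraMap_O K N O φ]
    exact B.mul_mem _ _ (pow_mem hϖinv n) (hG _ hui)

/-- **Integrality from `only`.**  If `F'` is integral over `φ(FF K N)` and every valuation subring
of `F'` containing `φ(G_N)` in which `ϖ` is not a unit contains one of the `V i`, then every element
of `⋂ V i` is integral over `φ(G_N)`. -/
theorem integralOverGauss_of_only {ϖ : ↥O} (hϖ : Irreducible ϖ)
    (hφ : (φ : FF K N →+* F').IsIntegral)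
    (honly : ∀ B : ValuationSubring F', (∀ g ∈ gaussSubalgebra K N O, φ g ∈ B) →
      algebraMap ↥O F' ϖ ∈ B.nonunits → ∃ i, ∀ y, y ∈ V i → y ∈ B)
    {y : F'} (hy : ∀ i, y ∈ V i) : IntegralOverGauss K N O φ y := by
  classical
  letI : Algebra ↥(gaussSubalgebra K N O).toSubring F' :=
    ((φ : FF K N →+* F').comp (gaussSubalgebra K N O).toSubring.subtype).toAlgebra
  show y ∈ (integralClosure ↥(gaussSubalgebra K N O).toSubring F').toSubring
  by_contra hyC
  obtain ⟨B, hCB, hyB⟩ := Subring.exists_le_valuationSubring_of_isIntegrallyClosedIn hyC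
  apply hyB
  have hGB : ∀ g ∈ gaussSubalgebra K N O, φ g ∈ B := fun g hg =>
    hCB ((integralClosure ↥(gaussSubalgebra K N O).toSubring F').algebraMap_mem ⟨g, hg⟩)
  by_cases hnu : algebraMap ↥O F' ϖ ∈ B.nonunits
  · obtain ⟨i, hi⟩ := honly B hGB hnu
    exact hi y (hy i)
  · have hfield := phi_mem_of_unit K N O φ hϖ B hGB hnu
    obtain ⟨P, hPm, hPy⟩ := hφ y
    have h2 : IsIntegral ↥B y := by
      refine ⟨P.map ((φ : FF K N →+* F').codRestrict B.toSubring hfield), hPm.map _, ?_⟩
      rw [Polynomial.eval₂_map]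
      exact hPy
    obtain ⟨z, hz⟩ := IsIntegrallyClosed.algebraMap_eq_of_integral h2
    rw [← hz]
    exact z.2

end Only

end Fermat.Agent.S36.C.SemiGaussTower
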